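/-
Cluster L (level lowering / raising), coordinator helper37.  Plan: NOTES/plan/L.md.
This file: EXACT shapes of the pure-algebra packages of NOTES/plan/L.md §2 and §5
(L-BLR, L-ODD, L-CHPOW, L-BLR-FROB) and the glue between them.

Owners:  `Stmt_BLR`, `Stmt_ODD` : helper19 (Fermat/Agent/L/H19_BLR.lean, H19_Odd.lean);
         `Stmt_CHpow` : helper52;   glue `stmt_BLR_Frob_of` : proved below (helper37).
-/
import Mathlib.RepresentationTheory.Basic
import Mathlib.LinearAlgebra.Trace
import Mathlib.LinearAlgebra.Determinant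
import Mathlib.LinearAlgebra.Dimension.Finrank

set_option autoImplicit false

namespace Fermat.Agent.L

open Module

/-- The Cayley-Hamilton relation of the 2-dimensional `ρ g` imposed on `π g`. -/
def CHRel {k : Type} [Field k] {G : Type} [Group G]
    {V : Type} [AddCommGroup V] [Module k V] (ρ : Representation k G V)
    {X : Type} [AddCommGroup X] [Module k X] (π : Representation k G X) (g : G) : Prop :=
  π g * π g - LinearMap.trace k V (ρ g) • π g + LinearMap.det (ρ g) • (1 : X →ₗ[k] X) = 0

/-- **L-BLR** (Boston-Lenstra-Ribet, characteristic `≠ 2`).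
`_hspan` is the Burnside form of absolute irreducibility: the `ρ g` span `End_k V`.
If every `π g` satisfies the characteristic polynomial of `ρ g` on a nonzero `X`, then `ρ`
embeds equivariantly into `π`. -/
def Stmt_BLR : Prop :=
  ∀ (k : Type) [Field k] (_h2 : (2 : k) ≠ 0) (G : Type) [Group G]
    (V : Type) [AddCommGroup V] [Module k V] (ρ : Representation k G V)
    (_hV : finrank k V = 2)
    (_hspan : Submodule.span k (Set.range ρ) = ⊤)
    (X : Type) [AddCommGroup X] [Module k X] [Nontrivial X] (π : Representation k G X)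
    (_hCH : ∀ g : G, CHRel ρ π g),
    ∃ f : V →ₗ[k] X, Function.Injective f ∧ ∀ g v, f (ρ g v) = π g (f v)

/-- **L-ODD**: an irreducible 2-dimensional representation with an "odd" involution `c`
(`c² = 1`, `det ρ(c) = -1`, characteristic `≠ 2`) is absolutely irreducible, in Burnside form. -/
def Stmt_ODD : Prop :=
  ∀ (F : Type) [Field F] (_h2 : (2 : F) ≠ 0) (G : Type) [Group G]
    (V : Type) [AddCommGroup V] [Module F V] (ρ : Representation F G V)
    (_hV : finrank F V = 2)
    (c : G) (_hc2 : c * c = 1) (_hcdet : LinearMap.det (ρ c) = -1)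
    (_hirr : ∀ W : Submodule F V, (∀ g, ∀ w ∈ W, ρ g w ∈ W) → W = ⊥ ∨ W = ⊤),
    Submodule.span F (Set.range ρ) = ⊤

/-- **L-CHPOW**: if `A` satisfies `X² - tX + d` where `t = tr M`, `d = det M` (`M` of rank 2), then
`A ^ j` satisfies the characteristic polynomial of `M ^ j`.
(Proof: `B := t - A`, `A B = d`, `A^j + B^j = V_j(t,d)` = Lucas sequence `= tr (M^j)` by the
recurrence `tr M^{j+2} = t tr M^{j+1} - d tr M^j` from Cayley-Hamilton.) -/
def Stmt_CHpow : Prop :=
  ∀ (k : Type) [Field k] (V : Type) [AddCommGroup V] [Module k V] (_hV : finrank k V = 2)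
    (M : V →ₗ[k] V) (X : Type) [AddCommGroup X] [Module k X] (A : X →ₗ[k] X)
    (_hA : A * A - LinearMap.trace k V M • A + LinearMap.det M • (1 : X →ₗ[k] X) = 0) (j : ℕ),
    A ^ j * A ^ j - LinearMap.trace k V (M ^ j) • A ^ j
      + LinearMap.det (M ^ j) • (1 : X →ₗ[k] X) = 0

/-- **L-BLR-FROB**: BLR with the Cayley-Hamilton relation known only on a set `S` of group
elements (the Frobenius elements) such that every `g` acts, on `V` and on `X`, like a power of
an element of `S` (this is what Frobenius density, item 61 `Fermat.Agent.R.Stmt_FD`, gives when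
`ρ` and `π` factor through a finite Galois group). -/
def Stmt_BLR_Frob : Prop :=
  ∀ (k : Type) [Field k] (_h2 : (2 : k) ≠ 0) (G : Type) [Group G]
    (V : Type) [AddCommGroup V] [Module k V] (ρ : Representation k G V)
    (_hV : finrank k V = 2)
    (_hspan : Submodule.span k (Set.range ρ) = ⊤)
    (X : Type) [AddCommGroup X] [Module k X] [Nontrivial X] (π : Representation k G X)
    (S : Set G) (_hS : ∀ g : G, ∃ s ∈ S, ∃ j : ℕ, ρ g = ρ s ^ j ∧ π g = π s ^ j)
    (_hCH : ∀ s ∈ S, CHRel ρ π s),
    ∃ f : V →ₗ[k] X, Function.Injective f ∧ ∀ g v, f (ρ g v) = π g (f v)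

theorem stmt_BLR_Frob_of (hBLR : Stmt_BLR) (hpow : Stmt_CHpow) : Stmt_BLR_Frob := by
  intro k _ h2 G _ V _ _ ρ hV hspan X _ _ _ π S hS hCH
  refine hBLR k h2 G V ρ hV hspan X π ?_
  intro g
  obtain ⟨s, hs, j, h1, h2'⟩ := hS g
  have := hpow k V hV (ρ s) X (π s) (hCH s hs) j
  unfold CHRel
  rw [h1, h2']
  exact this

end Fermat.Agent.L
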