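import Mathlib
import Fermat.Agent.L.Defs

/-!
# Cluster L, package L-BLR (helper19): the Boston–Lenstra–Ribet theorem

`G` a group, `k` a field, `M : G →* M₂(k)` with `span (M G) = M₂(k)` (Burnside: `M` absolutely
irreducible), `B` a `k`-algebra and `π : G →* B` such that every `π g` satisfies the characteristic
polynomial of `M g`.  Then `π` factors through `M`: there is a `k`-algebra homomorphism
`Φ : M₂(k) → B` with `Φ (M g) = π g` (`exists_algHom`).  Valid in every characteristic.

Proof (after Boston–Lenstra–Ribet, C. R. Acad. Sci. 312 (1991)): on the span `S` of the pairs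
`(M g, π g)` one has the polarised Cayley–Hamilton identity (`dagger`), hence the quadratic
identity (`quad`); an element `(0, b) ∈ S` then satisfies `b = 2 e b` for an idempotent `e`,
whence `b = 0`.
-/

set_option autoImplicit false

namespace Fermat.Agent.L.H19

open Matrix

variable {G k B : Type*} [Group G] [Field k] [Ring B] [Algebra k B]

/-! ### Identities for `2 × 2` matrices -/

lemma det_add_fin_two (m m' : Matrix (Fin 2) (Fin 2) k) :
    (m + m').det = m.det + m'.det + (m.trace * m'.trace - (m * m').trace) := by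
  simp only [Matrix.det_fin_two, Matrix.trace_fin_two, Matrix.mul_apply, Fin.sum_univ_two,
    Matrix.add_apply]
  ring

lemma det_smul_fin_two (c : k) (m : Matrix (Fin 2) (Fin 2) k) :
    (c • m).det = c ^ 2 * m.det := by
  simp only [Matrix.det_fin_two, Matrix.smul_apply, smul_eq_mul]
  ring

/-! ### The graph span -/

/-- The span of the pairs `(M g, π g)`. -/
def graphSpan (M : G →* Matrix (Fin 2) (Fin 2) k) (π : G →* B) :
    Submodule k (Matrix (Fin 2) (Fin 2) k × B) :=
  Submodule.span k (Set.range fun g => (M g, π g))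

variable {M : G →* Matrix (Fin 2) (Fin 2) k} {π : G →* B}

lemma gen_mem (g : G) : (M g, π g) ∈ graphSpan M π :=
  Submodule.subset_span ⟨g, rfl⟩

lemma one_mem_graphSpan : ((1 : Matrix (Fin 2) (Fin 2) k), (1 : B)) ∈ graphSpan M π := by
  have := gen_mem (M := M) (π := π) 1
  simpa using this

lemma mul_mem_graphSpan {r s : Matrix (Fin 2) (Fin 2) k × B} (hr : r ∈ graphSpan M π)
    (hs : s ∈ graphSpan M π) : (r.1 * s.1, r.2 * s.2) ∈ graphSpan M π := by
  induction hr using Submodule.span_induction with
  | mem r hr =>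
    obtain ⟨g, rfl⟩ := hr
    induction hs using Submodule.span_induction with
    | mem s hs =>
      obtain ⟨h, rfl⟩ := hs
      have := gen_mem (M := M) (π := π) (g * h)
      simpa using this
    | zero =>
      simp only [Prod.fst_zero, Prod.snd_zero, mul_zero]
      exact Submodule.zero_mem _
    | add s s' _ _ ih ih' =>
      have := Submodule.add_mem _ ih ih'
      simpa [mul_add] using this
    | smul c s _ ih =>
      have := Submodule.smul_mem _ c ih
      simpa using this
  | zero =>
    simp only [Prod.fst_zero, Prod.snd_zero, zero_mul]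
    exact Submodule.zero_mem _
  | add r r' _ _ ih ih' =>
    have := Submodule.add_mem _ ih ih'
    simpa [add_mul] using this
  | smul c r _ ih =>
    have := Submodule.smul_mem _ c ih
    simpa using this


/-! ### The polarised Cayley–Hamilton identity -/

section CH

variable (hCH : ∀ g, π g * π g - (M g).trace • π g + (M g).det • (1 : B) = 0)
include hCH

/-- `det(g) π(g⁻¹) = tr(g) - π(g)`. -/
lemma adj_rel (g : G) : (M g).det • π g⁻¹ = (M g).trace • (1 : B) - π g := by
  have h := hCH g
  have h1 : (π g * π g - (M g).trace • π g + (M g).det • (1 : B)) * π g⁻¹ = 0 := by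
    rw [h, zero_mul]
  have h2 : π g * π g⁻¹ = 1 := by rw [← map_mul, mul_inv_cancel, map_one]
  rw [add_mul, sub_mul, mul_assoc, h2, mul_one, smul_mul_assoc, h2, smul_mul_assoc, one_mul] at h1
  calc (M g).det • π g⁻¹
      = (π g - (M g).trace • (1 : B) + (M g).det • π g⁻¹) - (π g - (M g).trace • (1 : B)) := by
        abel
    _ = (M g).trace • (1 : B) - π g := by rw [h1]; abel

/-- The polarised identity on generators. -/
lemma dagger_gen (g h : G) :
    π g * π h + π h * π g - (M g).trace • π h - (M h).trace • π g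
      + ((M g).trace * (M h).trace - (M g * M h).trace) • (1 : B) = 0 := by
  have hg := adj_rel hCH g
  have hh := adj_rel hCH h
  have hgh := adj_rel hCH (g * h)
  have e1 : (M (g * h)).det • π (g * h)⁻¹ = ((M h).det • π h⁻¹) * ((M g).det • π g⁻¹) := by
    rw [_root_.mul_inv_rev, map_mul, map_mul, Matrix.det_mul, smul_mul_smul_comm, mul_comm (M h).det]
  rw [e1, hg, hh, map_mul, map_mul] at hgh
  have e2 : ((M h).trace • (1 : B) - π h) * ((M g).trace • (1 : B) - π g)
      = ((M g).trace * (M h).trace) • (1 : B) - (M h).trace • π g - (M g).trace • π h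
        + π h * π g := by
    rw [sub_mul, mul_sub, mul_sub, smul_mul_smul_comm, mul_one, smul_mul_assoc, one_mul,
      mul_smul_comm, mul_one, mul_comm (M h).trace]
    abel
  rw [e2] at hgh
  have := sub_eq_zero.mpr hgh
  rw [← this]
  module

/-- The defect of the polarised Cayley–Hamilton identity. -/
def Dg (r s : Matrix (Fin 2) (Fin 2) k × B) : B :=
  r.2 * s.2 + s.2 * r.2 - r.1.trace • s.2 - s.1.trace • r.2
    + (r.1.trace * s.1.trace - (r.1 * s.1).trace) • (1 : B)

omit hCH in
lemma Dg_add_left (r r' s : Matrix (Fin 2) (Fin 2) k × B) :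
    Dg (r + r') s = Dg r s + Dg r' s := by
  simp only [Dg, Prod.fst_add, Prod.snd_add, add_mul, mul_add, Matrix.trace_add]
  module

omit hCH in
lemma Dg_add_right (r s s' : Matrix (Fin 2) (Fin 2) k × B) :
    Dg r (s + s') = Dg r s + Dg r s' := by
  simp only [Dg, Prod.fst_add, Prod.snd_add, add_mul, mul_add, Matrix.trace_add]
  module

omit hCH in
lemma Dg_smul_left (c : k) (r s : Matrix (Fin 2) (Fin 2) k × B) :
    Dg (c • r) s = c • Dg r s := by
  simp only [Dg, Prod.smul_fst, Prod.smul_snd, Matrix.trace_smul, smul_mul_assoc,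
    mul_smul_comm, smul_eq_mul]
  module

omit hCH in
lemma Dg_smul_right (c : k) (r s : Matrix (Fin 2) (Fin 2) k × B) :
    Dg r (c • s) = c • Dg r s := by
  simp only [Dg, Prod.smul_fst, Prod.smul_snd, Matrix.trace_smul, smul_mul_assoc,
    mul_smul_comm, smul_eq_mul]
  module

omit hCH in
lemma Dg_zero_left (s : Matrix (Fin 2) (Fin 2) k × B) : Dg 0 s = 0 := by
  simp [Dg]

omit hCH in
lemma Dg_zero_right (r : Matrix (Fin 2) (Fin 2) k × B) : Dg r 0 = 0 := by
  simp [Dg]

/-- The polarised Cayley–Hamilton identity on the graph span. -/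
lemma dagger {r s : Matrix (Fin 2) (Fin 2) k × B} (hr : r ∈ graphSpan M π)
    (hs : s ∈ graphSpan M π) : Dg r s = 0 := by
  induction hr using Submodule.span_induction with
  | mem r hr =>
    obtain ⟨g, rfl⟩ := hr
    induction hs using Submodule.span_induction with
    | mem s hs =>
      obtain ⟨h, rfl⟩ := hs
      exact dagger_gen hCH g h
    | zero => exact Dg_zero_right _
    | add s s' _ _ ih ih' => rw [Dg_add_right, ih, ih', add_zero]
    | smul c s _ ih => rw [Dg_smul_right, ih, smul_zero]
  | zero => exact Dg_zero_left _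
  | add r r' _ _ ih ih' => rw [Dg_add_left, ih, ih', add_zero]
  | smul c r _ ih => rw [Dg_smul_left, ih, smul_zero]

/-- The quadratic identity on the graph span. -/
lemma quad {r : Matrix (Fin 2) (Fin 2) k × B} (hr : r ∈ graphSpan M π) :
    r.2 * r.2 - r.1.trace • r.2 + r.1.det • (1 : B) = 0 := by
  induction hr using Submodule.span_induction with
  | mem r hr =>
    obtain ⟨g, rfl⟩ := hr
    exact hCH g
  | zero => simp
  | add r s hr hs ih ih' =>
    have hd := dagger hCH hr hs
    simp only [Dg] at hd
    simp only [Prod.fst_add, Prod.snd_add, add_mul, mul_add, Matrix.trace_add, det_add_fin_two]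
    have e : r.2 * r.2 + s.2 * r.2 + (r.2 * s.2 + s.2 * s.2) - (r.1.trace + s.1.trace) • (r.2 + s.2)
        + (r.1.det + s.1.det + (r.1.trace * s.1.trace - (r.1 * s.1).trace)) • (1 : B)
        = (r.2 * r.2 - r.1.trace • r.2 + r.1.det • (1 : B))
          + (s.2 * s.2 - s.1.trace • s.2 + s.1.det • (1 : B))
          + (r.2 * s.2 + s.2 * r.2 - r.1.trace • s.2 - s.1.trace • r.2
            + (r.1.trace * s.1.trace - (r.1 * s.1).trace) • (1 : B)) := by
      module
    rw [e, ih, ih', hd]
    simp
  | smul c r _ ih =>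
    simp only [Prod.smul_fst, Prod.smul_snd, Matrix.trace_smul, smul_mul_assoc,
      mul_smul_comm, smul_eq_mul, det_smul_fin_two]
    have e : c • c • (r.2 * r.2) - (c * r.1.trace) • c • r.2 + (c ^ 2 * r.1.det) • (1 : B)
        = (c ^ 2) • (r.2 * r.2 - r.1.trace • r.2 + r.1.det • (1 : B)) := by
      module
    rw [e, ih, smul_zero]

/-- Key step: an element of the graph span with vanishing matrix component vanishes, as soon
as the graph span contains lifts of `E₁₂` and `E₂₁`. -/
lemma snd_eq_zero_of_fst_eq_zero {x y z : Matrix (Fin 2) (Fin 2) k × B}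
    (hx : x ∈ graphSpan M π) (hy : y ∈ graphSpan M π) (hz : z ∈ graphSpan M π)
    (hx1 : x.1 = 0) (hty : y.1.trace = 0) (htz : z.1.trace = 0)
    (htyz : (y.1 * z.1).trace = 1) (hdyz : (y.1 * z.1).det = 0) : x.2 = 0 := by
  have hyz := mul_mem_graphSpan hy hz
  -- `x y = - y x`, `x z = - z x`, `x (y z) + (y z) x = x`
  have h1 := dagger hCH hx hy
  have h2 := dagger hCH hx hz
  have h3 := dagger hCH hx hyz
  simp only [Dg, hx1, hty, htz, htyz, Matrix.trace_zero, zero_mul, zero_smul, sub_zero,
    mul_zero, add_zero, one_smul] at h1 h2 h3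
  have hq := quad hCH hyz
  simp only [htyz, hdyz, one_smul, zero_smul, add_zero] at hq
  -- `e = y z` is an idempotent
  set e : B := y.2 * z.2 with he
  have he2 : e * e = e := sub_eq_zero.mp hq
  have hxy : x.2 * y.2 = - (y.2 * x.2) := eq_neg_of_add_eq_zero_left h1
  have hxz : x.2 * z.2 = - (z.2 * x.2) := eq_neg_of_add_eq_zero_left h2
  have hxe : x.2 * e = e * x.2 := by
    rw [he, ← mul_assoc, hxy, neg_mul, mul_assoc, hxz, mul_neg, neg_neg, mul_assoc]
  have h4 : e * x.2 + e * x.2 = x.2 := by
    rw [hxe] at h3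
    exact sub_eq_zero.mp h3
  have h5 : e * x.2 = 0 := by
    have := congrArg (fun t => e * t) h4
    simp only [mul_add, ← mul_assoc, he2] at this
    exact add_eq_right.mp this |>.symm ▸ rfl
  rw [← h4, h5, add_zero]

end CH

/-! ### The algebra homomorphism -/

section AlgHom

variable (hspan : Submodule.span k (Set.range M) = ⊤)
  (hCH : ∀ g, π g * π g - (M g).trace • π g + (M g).det • (1 : B) = 0)

include hspan in
lemma exists_lift (π : G →* B) (m : Matrix (Fin 2) (Fin 2) k) :
    ∃ b : B, (m, b) ∈ graphSpan M π := by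
  have h : m ∈ Submodule.map (LinearMap.fst k (Matrix (Fin 2) (Fin 2) k) B) (graphSpan M π) := by
    rw [graphSpan, Submodule.map_span, ← Set.range_comp]
    have e : (⇑(LinearMap.fst k (Matrix (Fin 2) (Fin 2) k) B) ∘ fun g => (M g, π g)) = ⇑M := rfl
    rw [e, hspan]
    trivial
  obtain ⟨⟨m', b⟩, h, rfl⟩ := h
  exact ⟨b, h⟩

include hspan hCH in
/-- The graph span is the graph of a function. -/
lemma graph_unique {m : Matrix (Fin 2) (Fin 2) k} {b b' : B}
    (h : (m, b) ∈ graphSpan M π) (h' : (m, b') ∈ graphSpan M π) : b = b' := by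
  obtain ⟨by', hy⟩ := exists_lift hspan π (Matrix.single (0 : Fin 2) (1 : Fin 2) (1 : k))
  obtain ⟨bz, hz⟩ := exists_lift hspan π (Matrix.single (1 : Fin 2) (0 : Fin 2) (1 : k))
  have hx : ((0 : Matrix (Fin 2) (Fin 2) k), b - b') ∈ graphSpan M π := by
    have := Submodule.sub_mem _ h h'
    simpa using this
  have := snd_eq_zero_of_fst_eq_zero hCH hx hy hz rfl
    (by simp) (by simp) (by simp) (by simp [Matrix.det_fin_two])
  exact sub_eq_zero.mp this

include hspan hCH in
/-- **Boston–Lenstra–Ribet**: `π` factors through `M`. -/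
theorem exists_algHom :
    ∃ Φ : Matrix (Fin 2) (Fin 2) k →ₐ[k] B, ∀ g, Φ (M g) = π g := by
  choose φ hφ using exists_lift hspan π
  have huniq : ∀ {m : Matrix (Fin 2) (Fin 2) k} {b : B}, (m, b) ∈ graphSpan M π → φ m = b :=
    fun h => graph_unique hspan hCH (hφ _) h
  let L : Matrix (Fin 2) (Fin 2) k →ₗ[k] B :=
    { toFun := φ
      map_add' := fun m m' => huniq (by
        have := Submodule.add_mem _ (hφ m) (hφ m')
        simpa using this)
      map_smul' := fun c m => huniq (by
        have := Submodule.smul_mem _ c (hφ m)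
        simpa using this) }
  refine ⟨AlgHom.ofLinearMap L (huniq one_mem_graphSpan) (fun m m' => huniq ?_),
    fun g => huniq (gen_mem g)⟩
  exact mul_mem_graphSpan (hφ m) (hφ m')

end AlgHom

/-! ### Modules over `M₂(k)` -/

/-- A nonzero module over `M₂(k)` contains the standard module `k²`. -/
theorem exists_embedding {X : Type*} [AddCommGroup X] [Module k X] [Nontrivial X]
    (Φ : Matrix (Fin 2) (Fin 2) k →ₐ[k] Module.End k X) :
    ∃ f : (Fin 2 → k) →ₗ[k] X, Function.Injective f ∧
      ∀ (A : Matrix (Fin 2) (Fin 2) k) (v : Fin 2 → k), f (A.mulVec v) = Φ A (f v) := by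
  classical
  let e : Fin 2 → Fin 2 → k := fun i => Pi.single i 1
  let E : Fin 2 → Matrix (Fin 2) (Fin 2) k := fun i => Matrix.vecMulVec (e i) (e i)
  have hsum : E 0 + E 1 = 1 := by
    ext a c
    fin_cases a <;> fin_cases c <;> simp [E, e, Matrix.vecMulVec_apply]
  have hidem : ∀ i, E i * E i = E i := by
    intro i
    simp only [E, Matrix.vecMulVec_mul_vecMulVec]
    congr 1
    simp [e]
  -- some `E i` acts nontrivially
  have hex : ∃ (i : Fin 2) (x : X), Φ (E i) x ≠ 0 := by
    by_contra hcon
    push Not at hcon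
    obtain ⟨x, hx⟩ := exists_ne (0 : X)
    apply hx
    have h1 : Φ (E 0 + E 1) x = x := by rw [hsum, map_one]; rfl
    rw [map_add, LinearMap.add_apply, hcon 0 x, hcon 1 x, add_zero] at h1
    exact h1.symm
  obtain ⟨i, x, hx⟩ := hex
  set w : X := Φ (E i) x with hw
  have hEw : Φ (E i) w = w := by
    rw [hw, ← Module.End.mul_apply, ← map_mul, hidem]
  let f : (Fin 2 → k) →ₗ[k] X :=
    { toFun := fun v => Φ (Matrix.vecMulVec v (e i)) w
      map_add' := fun v v' => by
        rw [Matrix.add_vecMulVec, map_add, LinearMap.add_apply]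
      map_smul' := fun c v => by
        rw [Matrix.smul_vecMulVec, map_smul, LinearMap.smul_apply, RingHom.id_apply] }
  have hf : ∀ v, f v = Φ (Matrix.vecMulVec v (e i)) w := fun v => rfl
  refine ⟨f, ?_, fun A v => ?_⟩
  · rw [injective_iff_map_eq_zero]
    intro v hv
    by_contra hv0
    obtain ⟨a, ha⟩ : ∃ a, v a ≠ 0 := by
      by_contra hcon
      push Not at hcon
      exact hv0 (funext hcon)
    have hA : Matrix.vecMulVec (e i) ((v a)⁻¹ • e a) * Matrix.vecMulVec v (e i) = E i := by
      simp only [E, Matrix.vecMulVec_mul_vecMulVec]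
      congr 1
      have : ((v a)⁻¹ • e a) ⬝ᵥ v = 1 := by
        simp [e, dotProduct, Pi.single_apply, ha]
      rw [this, one_smul]
    apply hx
    have h2 : Φ (Matrix.vecMulVec (e i) ((v a)⁻¹ • e a)) (f v) = w := by
      rw [hf, ← Module.End.mul_apply, ← map_mul, hA, hEw]
    rw [hv, map_zero] at h2
    exact h2.symm
  · rw [hf, hf, ← Matrix.mul_vecMulVec, map_mul, Module.End.mul_apply]

/-! ### The package statement -/

/-- **L-BLR** in the exact shape of `Fermat.Agent.L.Stmt_BLR` (the hypothesis `2 ≠ 0` is not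
used). -/
theorem stmt_BLR : Fermat.Agent.L.Stmt_BLR := by
  intro k _ _ G _ V _ _ ρ hV hspan X _ _ _ π hCH
  have hfin : Module.Finite k V := Module.finite_of_finrank_eq_succ hV
  let b : Module.Basis (Fin 2) k V := Module.finBasisOfFinrankEq k V hV
  let T : (V →ₗ[k] V) ≃ₐ[k] Matrix (Fin 2) (Fin 2) k := LinearMap.toMatrixAlgEquiv b
  let M : G →* Matrix (Fin 2) (Fin 2) k := (T : (V →ₗ[k] V) →* Matrix (Fin 2) (Fin 2) k).comp ρ
  have hM : ∀ g, M g = LinearMap.toMatrix b b (ρ g) := fun g => rfl
  have hspanM : Submodule.span k (Set.range M) = ⊤ := by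
    have h := congrArg (Submodule.map T.toLinearEquiv.toLinearMap) hspan
    rw [Submodule.map_span, Submodule.map_top, ← Set.range_comp] at h
    have h' : LinearMap.range (T.toLinearEquiv.toLinearMap) = ⊤ :=
      LinearMap.range_eq_top.2 T.surjective
    rw [h'] at h
    exact h
  have hCHM : ∀ g, π g * π g - (M g).trace • π g + (M g).det • (1 : Module.End k X) = 0 := by
    intro g
    have h := hCH g
    unfold Fermat.Agent.L.CHRel at h
    rw [hM, ← LinearMap.trace_eq_matrix_trace k b, LinearMap.det_toMatrix b]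
    exact h
  obtain ⟨Φ, hΦ⟩ := exists_algHom (B := Module.End k X) (π := π) hspanM hCHM
  obtain ⟨f, hfinj, hf⟩ := exists_embedding Φ
  refine ⟨f ∘ₗ b.equivFun.toLinearMap, hfinj.comp b.equivFun.injective, fun g v => ?_⟩
  have h1 : b.equivFun (ρ g v) = (M g).mulVec (b.equivFun v) := by
    rw [hM]
    exact (LinearMap.toMatrix_mulVec_repr b b (ρ g) v).symm
  simp only [LinearMap.comp_apply, LinearEquiv.coe_coe]
  rw [h1, hf, hΦ]

end Fermat.Agent.L.H19
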