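import Mathlib
import Fermat.Agent.L.Defs

/-!
# Cluster L, package L-ODD (helper19): odd + irreducible ⇒ absolutely irreducible

An irreducible `2`-dimensional representation `ρ` over a field of characteristic `≠ 2` with an
involution `c` such that `det ρ(c) = -1` satisfies Burnside's conclusion
`span (ρ G) = End V`.  Elementary proof: in an eigenbasis of `ρ(c) = diag(1, -1)` the span
contains `E₁₁, E₂₂ = (1 ± ρ c)/2`, and `E₂₁`, `E₁₂` as `E₂₂ ρ(g) E₁₁`, `E₁₁ ρ(h) E₂₂` suitably
normalised (irreducibility: neither eigenline is stable).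
-/

set_option autoImplicit false

namespace Fermat.Agent.L.H19

open Matrix Module

/-- The span of the range of a monoid homomorphism into an algebra is a subalgebra. -/
lemma span_range_eq_adjoin {F A G : Type*} [Field F] [Ring A] [Algebra F A] [Monoid G]
    (φ : G →* A) :
    Submodule.span F (Set.range φ) = Subalgebra.toSubmodule (Algebra.adjoin F (Set.range φ)) := by
  rw [Algebra.adjoin_eq_span]
  congr 1
  rw [← MonoidHom.coe_mrange, Submonoid.closure_eq]

/-- Matrix core of L-ODD. -/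
lemma span_eq_top_of_diag {G F : Type*} [Group G] [Field F] (h2 : (2 : F) ≠ 0)
    (M : G →* Matrix (Fin 2) (Fin 2) F) (c : G) (hc : M c = !![1, 0; 0, -1])
    (g h : G) (hg : M g 1 0 ≠ 0) (hh : M h 0 1 ≠ 0) :
    Submodule.span F (Set.range M) = ⊤ := by
  rw [span_range_eq_adjoin, eq_top_iff]
  set 𝒜 := Algebra.adjoin F (Set.range M) with h𝒜
  have hmem : ∀ x, M x ∈ 𝒜 := fun x => Algebra.subset_adjoin ⟨x, rfl⟩
  have hE11 : Matrix.single (0 : Fin 2) (0 : Fin 2) (1 : F) ∈ 𝒜 := by
    have h1 : (2 : F)⁻¹ • ((1 : Matrix (Fin 2) (Fin 2) F) + M c) ∈ 𝒜 :=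
      𝒜.smul_mem (𝒜.add_mem 𝒜.one_mem (hmem c)) _
    convert h1 using 1
    rw [hc]
    ext i j
    fin_cases i <;> fin_cases j <;> simp
    · field_simp; norm_num
  have hE22 : Matrix.single (1 : Fin 2) (1 : Fin 2) (1 : F) ∈ 𝒜 := by
    have h1 : (2 : F)⁻¹ • ((1 : Matrix (Fin 2) (Fin 2) F) - M c) ∈ 𝒜 :=
      𝒜.smul_mem (𝒜.sub_mem 𝒜.one_mem (hmem c)) _
    convert h1 using 1
    rw [hc]
    ext i j
    fin_cases i <;> fin_cases j <;> simp
    · field_simp; norm_num
  have hE21 : Matrix.single (1 : Fin 2) (0 : Fin 2) (1 : F) ∈ 𝒜 := by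
    have h1 : (M g 1 0)⁻¹ • (Matrix.single (1 : Fin 2) (1 : Fin 2) (1 : F) * M g *
        Matrix.single (0 : Fin 2) (0 : Fin 2) (1 : F)) ∈ 𝒜 :=
      𝒜.smul_mem (𝒜.mul_mem (𝒜.mul_mem hE22 (hmem g)) hE11) _
    convert h1 using 1
    ext i j
    fin_cases i <;> fin_cases j <;> simp [Matrix.mul_apply, Matrix.single, hg]
  have hE12 : Matrix.single (0 : Fin 2) (1 : Fin 2) (1 : F) ∈ 𝒜 := by
    have h1 : (M h 0 1)⁻¹ • (Matrix.single (0 : Fin 2) (0 : Fin 2) (1 : F) * M h *
        Matrix.single (1 : Fin 2) (1 : Fin 2) (1 : F)) ∈ 𝒜 :=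
      𝒜.smul_mem (𝒜.mul_mem (𝒜.mul_mem hE11 (hmem h)) hE22) _
    convert h1 using 1
    ext i j
    fin_cases i <;> fin_cases j <;> simp [Matrix.mul_apply, Matrix.single, hh]
  intro m _
  have hm : m = m 0 0 • Matrix.single (0 : Fin 2) (0 : Fin 2) (1 : F)
      + m 0 1 • Matrix.single (0 : Fin 2) (1 : Fin 2) (1 : F)
      + m 1 0 • Matrix.single (1 : Fin 2) (0 : Fin 2) (1 : F)
      + m 1 1 • Matrix.single (1 : Fin 2) (1 : Fin 2) (1 : F) := by
    ext i j
    fin_cases i <;> fin_cases j <;> simp [Matrix.single]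
  rw [hm]
  exact 𝒜.add_mem (𝒜.add_mem (𝒜.add_mem (𝒜.smul_mem hE11 _) (𝒜.smul_mem hE12 _))
    (𝒜.smul_mem hE21 _)) (𝒜.smul_mem hE22 _)

/-- **L-ODD** in the exact shape of `Fermat.Agent.L.Stmt_ODD`. -/
theorem stmt_ODD : Fermat.Agent.L.Stmt_ODD := by
  intro F _ h2 G _ V _ _ ρ hV c hc2 hcdet hirr
  have hfin : Module.Finite F V := Module.finite_of_finrank_eq_succ hV
  have hCC : ∀ v, ρ c (ρ c v) = v := by
    intro v
    rw [← Module.End.mul_apply, ← map_mul, hc2, map_one]
    rfl
  have h1ne : (1 : F) ≠ -1 := by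
    intro h
    apply h2
    have e : (2 : F) = 1 + 1 := by norm_num
    rw [e]
    nth_rewrite 1 [h]
    ring
  have hC1 : ρ c ≠ 1 := by
    intro h
    rw [h, map_one] at hcdet
    exact h1ne hcdet
  have hCm1 : ρ c ≠ -1 := by
    intro h
    have hd : LinearMap.det (-1 : V →ₗ[F] V) = 1 := by
      have := LinearMap.det_smul (-1 : F) (1 : V →ₗ[F] V)
      rw [hV] at this
      simpa using this
    rw [h, hd] at hcdet
    exact h1ne hcdet
  -- eigenvectors
  obtain ⟨ep, hep0, hep⟩ : ∃ v : V, v ≠ 0 ∧ ρ c v = v := by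
    have : ∃ w, ρ c w ≠ -w := by
      by_contra hcon
      push Not at hcon
      exact hCm1 (LinearMap.ext fun w => by simpa using hcon w)
    obtain ⟨w, hw⟩ := this
    refine ⟨ρ c w + w, fun h => hw (eq_neg_of_add_eq_zero_left h), ?_⟩
    rw [map_add, hCC, add_comm]
  obtain ⟨em, hem0, hem⟩ : ∃ v : V, v ≠ 0 ∧ ρ c v = -v := by
    have : ∃ w, ρ c w ≠ w := by
      by_contra hcon
      push Not at hcon
      exact hC1 (LinearMap.ext fun w => by simpa using hcon w)
    obtain ⟨w, hw⟩ := this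
    refine ⟨ρ c w - w, fun h => hw (sub_eq_zero.mp h), ?_⟩
    rw [map_sub, hCC, neg_sub]
  -- the eigenbasis
  have hli : LinearIndependent F ![ep, em] := by
    rw [LinearIndependent.pair_iff]
    intro s t hst
    have h' := congrArg (ρ c) hst
    rw [map_add, map_smul, map_smul, hep, hem, map_zero, smul_neg] at h'
    have hs : (2 * s) • ep = 0 := by
      have := congrArg₂ (· + ·) hst h'
      simp only [add_zero] at this
      rw [← this]
      module
    have ht : (2 * t) • em = 0 := by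
      have := congrArg₂ (· - ·) hst h'
      simp only [sub_zero] at this
      rw [← this]
      module
    rw [smul_eq_zero] at hs ht
    refine ⟨?_, ?_⟩
    · rcases hs with hs | hs
      · exact (mul_eq_zero.mp hs).resolve_left h2
      · exact absurd hs hep0
    · rcases ht with ht | ht
      · exact (mul_eq_zero.mp ht).resolve_left h2
      · exact absurd ht hem0
  let b : Module.Basis (Fin 2) F V :=
    basisOfLinearIndependentOfCardEqFinrank hli (by simp [hV])
  have hb : ∀ i, b i = ![ep, em] i := fun i => by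
    simp only [b, coe_basisOfLinearIndependentOfCardEqFinrank]
  have hb0 : b 0 = ep := by rw [hb]; rfl
  have hb1 : b 1 = em := by rw [hb]; rfl
  let T : (V →ₗ[F] V) ≃ₐ[F] Matrix (Fin 2) (Fin 2) F := LinearMap.toMatrixAlgEquiv b
  let M : G →* Matrix (Fin 2) (Fin 2) F := (T : (V →ₗ[F] V) →* Matrix (Fin 2) (Fin 2) F).comp ρ
  have hM : ∀ g i j, M g i j = b.repr (ρ g (b j)) i := fun g i j =>
    LinearMap.toMatrix_apply b b (ρ g) i j
  have hexp : ∀ g j, ρ g (b j) = M g 0 j • ep + M g 1 j • em := by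
    intro g j
    have := b.sum_repr (ρ g (b j))
    rw [Fin.sum_univ_two, hb0, hb1] at this
    rw [hM, hM]
    exact this.symm
  have hMc : M c = !![1, 0; 0, -1] := by
    have h0 : b.repr (ρ c (b 0)) = b.repr (b 0) := by rw [hb0, hep]
    have h1 : b.repr (ρ c (b 1)) = - b.repr (b 1) := by rw [hb1, hem, map_neg]
    ext i j
    rw [hM]
    fin_cases i <;> fin_cases j <;> simp [h0, h1]
  -- neither eigenline is stable
  have hem_not : em ∉ Submodule.span F {ep} := by
    intro h
    obtain ⟨a, ha⟩ := Submodule.mem_span_singleton.mp h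
    have h3 := LinearIndependent.pair_iff.mp hli a (-1) (by rw [ha]; simp)
    exact one_ne_zero (neg_eq_zero.mp h3.2)
  have hep_not : ep ∉ Submodule.span F {em} := by
    intro h
    obtain ⟨a, ha⟩ := Submodule.mem_span_singleton.mp h
    have h3 := LinearIndependent.pair_iff.mp hli (-1) a (by rw [ha]; simp)
    exact one_ne_zero (neg_eq_zero.mp h3.1)
  obtain ⟨g, hg⟩ : ∃ g, M g 1 0 ≠ 0 := by
    by_contra hcon
    push Not at hcon
    have hst : ∀ g, ∀ w ∈ Submodule.span F {ep}, ρ g w ∈ Submodule.span F {ep} := by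
      intro g w hw
      obtain ⟨a, rfl⟩ := Submodule.mem_span_singleton.mp hw
      rw [map_smul]
      refine Submodule.smul_mem _ _ ?_
      have := hexp g 0
      rw [hb0, hcon g, zero_smul, add_zero] at this
      rw [this]
      exact Submodule.smul_mem _ _ (Submodule.mem_span_singleton_self ep)
    rcases hirr _ hst with h | h
    · exact hep0 ((Submodule.span_singleton_eq_bot).mp h)
    · exact hem_not (h ▸ Submodule.mem_top)
  obtain ⟨h, hh⟩ : ∃ h, M h 0 1 ≠ 0 := by
    by_contra hcon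
    push Not at hcon
    have hst : ∀ g, ∀ w ∈ Submodule.span F {em}, ρ g w ∈ Submodule.span F {em} := by
      intro g w hw
      obtain ⟨a, rfl⟩ := Submodule.mem_span_singleton.mp hw
      rw [map_smul]
      refine Submodule.smul_mem _ _ ?_
      have := hexp g 1
      rw [hb1, hcon g, zero_smul, zero_add] at this
      rw [this]
      exact Submodule.smul_mem _ _ (Submodule.mem_span_singleton_self em)
    rcases hirr _ hst with h | h
    · exact hem0 ((Submodule.span_singleton_eq_bot).mp h)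
    · exact hep_not (h ▸ Submodule.mem_top)
  have hspanM := span_eq_top_of_diag h2 M c hMc g h hg hh
  -- transfer back to `End V`
  have h3 := congrArg (Submodule.map T.symm.toLinearEquiv.toLinearMap) hspanM
  rw [Submodule.map_span, Submodule.map_top, ← Set.range_comp] at h3
  have h4 : LinearMap.range (T.symm.toLinearEquiv.toLinearMap) = ⊤ :=
    LinearMap.range_eq_top.2 T.symm.surjective
  rw [h4] at h3
  have h5 : (⇑(T.symm.toLinearEquiv.toLinearMap) ∘ ⇑M) = ⇑ρ := by
    funext x
    exact T.symm_apply_apply (ρ x)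
  rw [h5] at h3
  exact h3

end Fermat.Agent.L.H19
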