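/-
Cluster L, package L-CHPOW (helper52): `Fermat.Agent.L.Stmt_CHpow`.

If `A` (an element of any algebra over a commutative ring) satisfies `A² - t A + d = 0`, then
`A ^ j` satisfies `X² - v_j X + d^j` where `v_j` is the Lucas sequence of `(t, d)`.
With `t = tr M`, `d = det M` for a rank-2 endomorphism `M`, `v_j = tr (M ^ j)` and
`d ^ j = det (M ^ j)` (helper91's `R/H91_Lucas.lean`).
-/
import Fermat.Agent.L.Defs
import Fermat.Agent.R.H91_Lucas

set_option autoImplicit false

namespace Fermat.Agent.L.H52

open Module Fermat.Agent.R.H91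

section Algebra

variable {R : Type*} [CommRing R] {E : Type*} [Ring E] [Algebra R E]

/-- With `B = t - A`, the quadratic relation says `A * B = d`. -/
theorem mul_conj_eq (t d : R) (A : E) (hA : A * A - t • A + d • (1 : E) = 0) :
    A * (t • (1 : E) - A) = d • (1 : E) := by
  have h : A * A = t • A - d • (1 : E) := by
    rw [eq_sub_iff_add_eq, ← sub_eq_zero, ← hA]; abel
  rw [mul_sub, mul_smul_comm, mul_one, h]; abel

theorem commute_conj (t : R) (A : E) : Commute A (t • (1 : E) - A) := by
  refine Commute.sub_right ?_ (Commute.refl A)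
  rw [← Algebra.algebraMap_eq_smul_one]
  exact Algebra.commute_algebraMap_right t A

/-- `A ^ j + B ^ j` is the Lucas number `v_j(t, d)` (where `B = t - A`). -/
theorem pow_add_conj_pow (t d : R) (A : E) (hA : A * A - t • A + d • (1 : E) = 0) (j : ℕ) :
    A ^ j + (t • (1 : E) - A) ^ j = lucasV t d j • (1 : E) := by
  have hAB := mul_conj_eq t d A hA
  have hc := commute_conj t A
  induction j using Nat.strong_induction_on with
  | _ j ih =>
    match j with
    | 0 =>
      rw [pow_zero, pow_zero, lucasV_zero, ← one_add_one_eq_two, add_smul, one_smul]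
    | 1 =>
      rw [pow_one, pow_one, lucasV_one]; abel
    | (j + 2) =>
      have h1 := ih (j + 1) (by omega)
      have h0 := ih j (by omega)
      set B : E := t • (1 : E) - A with hB
      have hsum : A + B = t • (1 : E) := by rw [hB]; abel
      have key : A ^ (j + 2) + B ^ (j + 2)
          = (A + B) * (A ^ (j + 1) + B ^ (j + 1)) - (A * B) * (A ^ j + B ^ j) := by
        have e1 : B * A ^ (j + 1) = (A * B) * A ^ j := by
          rw [pow_succ', ← mul_assoc, hc.eq]
        have e2 : A * B ^ (j + 1) = (A * B) * B ^ j := by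
          rw [pow_succ', ← mul_assoc]
        rw [add_mul, mul_add, mul_add, mul_add, e1, e2, ← pow_succ', ← pow_succ']
        abel
      rw [key, hsum, hAB, h1, h0, lucasV_add_two, smul_mul_assoc, one_mul, smul_mul_assoc,
        one_mul, smul_smul, smul_smul, sub_smul]

/-- **Powers satisfy the Lucas quadratic.** -/
theorem pow_quadratic (t d : R) (A : E) (hA : A * A - t • A + d • (1 : E) = 0) (j : ℕ) :
    A ^ j * A ^ j - lucasV t d j • A ^ j + d ^ j • (1 : E) = 0 := by
  have hAB := mul_conj_eq t d A hA
  have hc := commute_conj t A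
  have hl := pow_add_conj_pow t d A hA j
  have h1 : lucasV t d j • A ^ j = A ^ j * A ^ j + A ^ j * (t • (1 : E) - A) ^ j := by
    rw [← mul_add, hl, mul_smul_comm, mul_one]
  have h2 : A ^ j * (t • (1 : E) - A) ^ j = d ^ j • (1 : E) := by
    rw [← hc.mul_pow, hAB, smul_pow, one_pow]
  rw [h1, h2]; abel

end Algebra

/-- **L-CHPOW.** -/
theorem stmt_CHpow : Stmt_CHpow := by
  intro k _ V _ _ hV M X _ _ A hA j
  have hfin : Module.Finite k V := Module.finite_of_finrank_pos (by omega)
  have hch := charpoly_eq_of_finrank_two hV M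
  have htr := trace_pow_of_charpoly hV M hch j
  have h := pow_quadratic (LinearMap.trace k V M) (LinearMap.det M) A hA j
  rw [htr, map_pow]
  exact h

end Fermat.Agent.L.H52
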