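/-
Cluster L, package L-REC (helper52): congruence recovery for elliptic curves over `ℚ`.

If a nonzero `𝔽_p[G_ℚ]`-module `X` (action through a finite quotient) satisfies, for almost all
primes `ℓ`, the Eichler-Shimura relation `Frob_ℓ² - a_ℓ(W) Frob_ℓ + ℓ = 0`, and `E[p]` is
irreducible (`p` odd), then `E[p]` embeds Galois-equivariantly into `X`.

Inputs: Frobenius density (item 61, `Fermat.Agent.R.Stmt_FD`), trace and determinant of
Frobenius on `E[p]` (item 62, `Fermat.Agent.Lib.EllFinite.Stmt_main`), Boston-Lenstra-Ribet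
(`Stmt_BLR`, helper19), odd + irreducible ⇒ Burnside (`Stmt_ODD`, helper19), `Stmt_CHpow`.
-/
import Mathlib
import Fermat.Agent.L.Defs
import Fermat.Agent.L.H52_CHpow
import Fermat.Agent.R.Defs
import Fermat.Agent.R.H89_CycChar
import Fermat.Agent.Lib.EllFinite.Defs
import Fermat.Prelude.Def_GaloisRep_ComplexConjugation

set_option autoImplicit false

open WeierstrassCurve WeierstrassCurve.Affine WeierstrassCurve.Affine.Point
open scoped WeierstrassCurve.Affine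

namespace Fermat.Agent.L.H52

/-- `ℚ̄`. -/
abbrev Qb : Type := AlgebraicClosure ℚ

/-- The absolute Galois group of `ℚ`. -/
abbrev GQ : Type := AlgebraicClosure ℚ ≃ₐ[ℚ] AlgebraicClosure ℚ

/-- The `p`-torsion of an elliptic curve over `ℚ`, as a Galois module. -/
abbrev TorsQ (E : WeierstrassCurve ℚ) (p : ℕ) : Type :=
  Submodule.torsionBy ℤ (E.toAffine⁄(AlgebraicClosure ℚ)).Point p

/-! ### Roots of unity: Frobenius elements and complex conjugation -/

section Roots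

/-- A Frobenius element at `ℓ ≠ p` raises `p`-th roots of unity to the `ℓ`-th power. -/
theorem frob_root (A : ValuationSubring Qb) {ℓ p : ℕ} (hℓ : ℓ.Prime) (hp : p.Prime)
    (hne : ℓ ≠ p) (hA : A.LiesOverPrime ℓ) {σ : GQ} (hσ : A.IsFrobeniusAt σ ℓ) {ζ : Qb}
    (hζ : ζ ^ p = 1) : σ ζ = ζ ^ ℓ := by
  have hζA : ζ ∈ A := by
    rw [← A.valuation_le_one_iff,
      Fermat.Agent.R.H89.h89_valuation_eq_one_of_pow_eq_one A hp.ne_zero hζ]
  have h1 := Fermat.Agent.R.H89.h89_frob_sub_mem A hσ hζA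
  have hpA : (p : Qb) ∉ A.nonunits :=
    Fermat.Agent.R.H89.h89_prime_not_mem_nonunits A hp hℓ hne hA
  refine Fermat.Agent.R.H89.h89_eq_of_sub_mem A p hp.ne_zero hpA (n := 1) ?_ ?_ h1
  · rw [pow_one, ← map_pow, hζ, map_one]
  · rw [pow_one, ← pow_mul, mul_comm, pow_mul, hζ, one_pow]

/-- Powers of a Frobenius element on roots of unity. -/
theorem frob_pow_root (A : ValuationSubring Qb) {ℓ p : ℕ} (hℓ : ℓ.Prime) (hp : p.Prime)
    (hne : ℓ ≠ p) (hA : A.LiesOverPrime ℓ) {σ : GQ} (hσ : A.IsFrobeniusAt σ ℓ) (j : ℕ) {ζ : Qb}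
    (hζ : ζ ^ p = 1) : (σ ^ j) ζ = ζ ^ (ℓ ^ j) := by
  induction j generalizing ζ with
  | zero => simp
  | succ j ih =>
    rw [pow_succ, AlgEquiv.mul_apply, frob_root A hℓ hp hne hA hσ hζ, map_pow, ih hζ, ← pow_mul,
      pow_succ]

/-- Complex conjugation inverts roots of unity. -/
theorem complexConjugation_root {p : ℕ} (hp : p ≠ 0) {ζ : Qb} (hζ : ζ ^ p = 1) :
    complexConjugation ζ = ζ⁻¹ := by
  apply complexEmbedding.toRingHom.injective
  change complexEmbedding (complexConjugation ζ) = complexEmbedding ζ⁻¹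
  rw [complexEmbedding_complexConjugation, map_inv₀]
  have hz : (complexEmbedding ζ) ^ p = 1 := by rw [← map_pow, hζ, map_one]
  have hn : ‖complexEmbedding ζ‖ = 1 := Complex.norm_eq_one_of_pow_eq_one hz hp
  exact (Complex.inv_eq_conj hn).symm

end Roots

/-! ### `E[p]` factors through a finite extension -/

section Level

/-- The finite set of coordinates of a point. -/
noncomputable def coords {L : Type*} [Field L] [DecidableEq L] {W : Affine L} :
    W.Point → Finset L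
  | .zero => ∅
  | .some x y _ => {x, y}

theorem smul_eq_of_fix (E : WeierstrassCurve ℚ) (p : ℕ) (σ : GQ) (v : TorsQ E p)
    (h : ∀ x ∈ coords (v : (E.toAffine⁄Qb).Point), σ x = x) : σ • v = v := by
  apply Subtype.ext
  change σ • (v : (E.toAffine⁄Qb).Point) = v
  rcases hv : (v : (E.toAffine⁄Qb).Point) with _ | ⟨x, y, hxy⟩
  · rfl
  · rw [hv] at h
    have hx : σ x = x := h x (by simp [coords])
    have hy : σ y = y := h y (by simp [coords])
    rw [algEquiv_smul_def]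
    simp only [Point.map_some]
    congr 1

/-- The Galois action on a finite `E[p]` factors through a finite extension of `ℚ`. -/
theorem exists_level (E : WeierstrassCurve ℚ) (p : ℕ) [Finite (TorsQ E p)] :
    ∃ L : IntermediateField ℚ Qb, FiniteDimensional ℚ L ∧
      ∀ σ : GQ, (∀ x ∈ L, σ x = x) → ∀ v : TorsQ E p, σ • v = v := by
  classical
  letI : Fintype (TorsQ E p) := Fintype.ofFinite _
  let S : Finset Qb := Finset.univ.biUnion fun v : TorsQ E p =>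
    coords (v : (E.toAffine⁄Qb).Point)
  haveI halg : Algebra.IsAlgebraic ℚ Qb := AlgebraicClosure.isAlgebraic ℚ
  refine ⟨IntermediateField.adjoin ℚ (S : Set Qb),
    IntermediateField.finiteDimensional_adjoin
      (fun x _ => (Algebra.IsAlgebraic.isAlgebraic x).isIntegral), fun σ hσ v => ?_⟩
  refine smul_eq_of_fix E p σ v fun x hx => hσ x (IntermediateField.subset_adjoin ℚ _ ?_)
  exact Finset.mem_coe.2 (Finset.mem_biUnion.mpr ⟨v, Finset.mem_univ _, hx⟩)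

/-- A homomorphism which is trivial on the elements fixing `L` takes the same value on elements
which agree on `L`. -/
theorem map_eq_of_agree {M : Type*} [Monoid M] (φ : GQ →* M) (L : IntermediateField ℚ Qb)
    (hφ : ∀ σ : GQ, (∀ x ∈ L, σ x = x) → φ σ = 1) {g h : GQ} (hgh : ∀ x ∈ L, g x = h x) :
    φ g = φ h := by
  have h1 : φ (h⁻¹ * g) = 1 := hφ _ (fun x hx => by
    rw [AlgEquiv.mul_apply, hgh x hx]
    exact h.symm_apply_apply x)
  have h2 : φ g = φ h * φ (h⁻¹ * g) := by rw [← map_mul, mul_inv_cancel_left]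
  rw [h2, h1, mul_one]

end Level

/-! ### Frobenius density for a model -/

section Density

variable (W : WeierstrassCurve ℤ) (p : ℕ)

/-- The curve over `ℚ` of an integral model. -/
abbrev WQ (W : WeierstrassCurve ℤ) : WeierstrassCurve ℚ := W.map (Int.castRingHom ℚ)

/-- The mod `p` representation of the model. -/
noncomputable abbrev rhoW (W : WeierstrassCurve ℤ) (p : ℕ) :
    GQ →* Module.End (ZMod p) (TorsQ (WQ W) p) :=
  galoisRepModuleEnd (S := ℚ) (K := AlgebraicClosure ℚ) (WQ W).toAffine p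

/-- The exceptional set: `S`, the bad primes of the model, and `p`. -/
def badSet (S : Finset ℕ) : Finset ℕ := S ∪ W.Δ.natAbs.primeFactors ∪ {p}

variable {W p}

theorem good_of_notMem_badSet (hΔ : W.Δ ≠ 0) {S : Finset ℕ} {ℓ : ℕ} (hℓ : ℓ.Prime)
    (h : ℓ ∉ badSet W p S) : ℓ ∉ S ∧ ℓ ≠ p ∧ W.IsGoodPrimeFor ℓ := by
  simp only [badSet, Finset.mem_union, Finset.mem_singleton, not_or] at h
  refine ⟨h.1.1, h.2, fun hdvd => h.1.2 ?_⟩
  rw [Nat.mem_primeFactors]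
  exact ⟨hℓ, Int.natCast_dvd.mp hdvd, Int.natAbs_ne_zero.mpr hΔ⟩

/-- Frobenius density, with good primes. -/
theorem exists_frob (hFD : Fermat.Agent.R.Stmt_FD) (hΔ : W.Δ ≠ 0) (S : Finset ℕ)
    (L : IntermediateField ℚ Qb) (hL : FiniteDimensional ℚ L) (g : GQ) :
    ∃ (ℓ : ℕ) (A : ValuationSubring Qb) (σ : GQ) (j : ℕ),
      ℓ.Prime ∧ ℓ ∉ S ∧ ℓ ≠ p ∧ W.IsGoodPrimeFor ℓ ∧ A.LiesOverPrime ℓ ∧ A.IsFrobeniusAt σ ℓ ∧
        ∀ x ∈ L, (σ ^ j) x = g x := by
  obtain ⟨ℓ, A, σ, j, hℓ, hℓS, hA, hσ, hj⟩ := hFD (badSet W p S) L hL g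
  obtain ⟨h1, h2, h3⟩ := good_of_notMem_badSet hΔ hℓ hℓS
  exact ⟨ℓ, A, σ, j, hℓ, h1, h2, h3, hA, hσ, hj⟩

variable [Fact p.Prime]

/-- `E[p]` has dimension `2`. -/
theorem finrank_tors (hFD : Fermat.Agent.R.Stmt_FD)
    (hmain : Fermat.Agent.Lib.EllFinite.Stmt_main) (hΔ : W.Δ ≠ 0) :
    Module.finrank (ZMod p) (TorsQ (WQ W) p) = 2 := by
  obtain ⟨ℓ, A, σ, j, hℓ, -, hℓp, hgood, hA, hσ, -⟩ :=
    exists_frob (p := p) hFD hΔ ∅ ⊥ inferInstance 1
  exact (hmain W p ℓ hℓ (Ne.symm hℓp) hgood A hA σ hσ).1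

theorem finite_tors (hFD : Fermat.Agent.R.Stmt_FD)
    (hmain : Fermat.Agent.Lib.EllFinite.Stmt_main) (hΔ : W.Δ ≠ 0) :
    Finite (TorsQ (WQ W) p) := by
  have h := finrank_tors (p := p) hFD hmain hΔ
  haveI : Module.Finite (ZMod p) (TorsQ (WQ W) p) := Module.finite_of_finrank_pos (by omega)
  exact Module.finite_of_finite (ZMod p)

theorem two_ne_zero_zmod (hp2 : p ≠ 2) : (2 : ZMod p) ≠ 0 := by
  intro h
  have h' : ((2 : ℕ) : ZMod p) = 0 := by exact_mod_cast h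
  rw [ZMod.natCast_eq_zero_iff] at h'
  exact hp2 ((Nat.prime_dvd_prime_iff_eq (Fact.out : p.Prime) Nat.prime_two).mp h')

/-- **`det ρ(c) = -1`** for the complex conjugation `c`. -/
theorem det_complexConjugation (hFD : Fermat.Agent.R.Stmt_FD)
    (hmain : Fermat.Agent.Lib.EllFinite.Stmt_main) (hΔ : W.Δ ≠ 0) :
    LinearMap.det (rhoW W p complexConjugation) = -1 := by
  have hpp : p.Prime := Fact.out
  haveI := finite_tors (p := p) hFD hmain hΔ
  obtain ⟨L₀, hL₀, hfix⟩ := exists_level (WQ W) p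
  haveI : NeZero p := ⟨hpp.ne_zero⟩
  obtain ⟨ζ, hζ⟩ := HasEnoughRootsOfUnity.exists_primitiveRoot Qb p
  let L₁ : IntermediateField ℚ Qb := IntermediateField.adjoin ℚ {ζ}
  have hL₁ : FiniteDimensional ℚ L₁ :=
    IntermediateField.adjoin.finiteDimensional (hζ.isIntegral hpp.pos).tower_top
  haveI := hL₀
  haveI := hL₁
  obtain ⟨ℓ, A, σ, j, hℓ, -, hℓp, hgood, hA, hσ, hj⟩ :=
    exists_frob (p := p) hFD hΔ ∅ (L₀ ⊔ L₁) inferInstance complexConjugation
  have hρ1 : ∀ τ : GQ, (∀ x ∈ L₀, τ x = x) → rhoW W p τ = 1 := by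
    intro τ hτ
    refine LinearMap.ext fun v => ?_
    rw [galoisRepModuleEnd_apply, Module.End.one_apply]
    exact hfix τ hτ v
  have hρ : rhoW W p complexConjugation = rhoW W p σ ^ j := by
    rw [← map_pow]
    exact (map_eq_of_agree (rhoW W p) L₀ hρ1
      (fun x hx => hj x ((le_sup_left : L₀ ≤ L₀ ⊔ L₁) hx))).symm
  have hdet := (hmain W p ℓ hℓ (Ne.symm hℓp) hgood A hA σ hσ).2.2
  have hζ1 : ζ ^ p = 1 := hζ.pow_eq_one
  have hζL : ζ ∈ L₀ ⊔ L₁ :=
    (le_sup_right : L₁ ≤ L₀ ⊔ L₁) (IntermediateField.mem_adjoin_simple_self ℚ ζ)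
  have h1 : ζ ^ (ℓ ^ j) = ζ⁻¹ := by
    rw [← frob_pow_root A hℓ hpp hℓp hA hσ j hζ1, hj ζ hζL,
      complexConjugation_root hpp.ne_zero hζ1]
  have hζ0 : ζ ≠ 0 := hζ.ne_zero hpp.ne_zero
  have h2 : ζ ^ (ℓ ^ j + 1) = 1 := by
    rw [pow_succ, h1, inv_mul_cancel₀ hζ0]
  have h3 : p ∣ ℓ ^ j + 1 := hζ.dvd_of_pow_eq_one _ h2
  have h4 : ((ℓ ^ j + 1 : ℕ) : ZMod p) = 0 := (ZMod.natCast_eq_zero_iff _ _).2 h3
  rw [hρ, map_pow, hdet]
  push_cast at h4
  exact eq_neg_of_add_eq_zero_left h4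

/-- **Burnside for `E[p]`**: an irreducible `E[p]` (`p` odd) spans `End E[p]`. -/
theorem span_rhoW_eq_top (hFD : Fermat.Agent.R.Stmt_FD)
    (hmain : Fermat.Agent.Lib.EllFinite.Stmt_main) (hODD : Stmt_ODD) (hp2 : p ≠ 2)
    (hΔ : W.Δ ≠ 0)
    (hirr : GaloisRepIsIrreducible (K := AlgebraicClosure ℚ) ℚ (WQ W).toAffine p) :
    Submodule.span (ZMod p) (Set.range (rhoW W p)) = ⊤ := by
  refine hODD (ZMod p) (two_ne_zero_zmod hp2) GQ (TorsQ (WQ W) p) (rhoW W p)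
    (finrank_tors hFD hmain hΔ) complexConjugation complexConjugation_mul_self
    (det_complexConjugation hFD hmain hΔ) ?_
  intro N hN
  exact hirr.2 N (fun σ x hx => hN σ x hx)

end Density

/-! ### Congruence recovery -/

/-- **L-REC** (congruence recovery over `𝔽_p`).  `X` is a nonzero `𝔽_p`-module with an action
`π` of `G_ℚ` which is trivial on the elements fixing a finite extension `L`; for the primes `ℓ`
outside a finite set `S`, every Frobenius element at `ℓ` satisfies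
`π(σ)² - a_ℓ(W) π(σ) + ℓ = 0`.  If `E[p]` is irreducible and `p` is odd, then `E[p]` embeds
Galois-equivariantly into `X`. -/
def Stmt_Rec : Prop :=
  ∀ (W : WeierstrassCurve ℤ) (p : ℕ) [Fact p.Prime], p ≠ 2 → W.Δ ≠ 0 →
    GaloisRepIsIrreducible (K := AlgebraicClosure ℚ) ℚ (WQ W).toAffine p →
    ∀ (X : Type) [AddCommGroup X] [Module (ZMod p) X] [Nontrivial X]
      (π : GQ →* Module.End (ZMod p) X) (L : IntermediateField ℚ Qb), FiniteDimensional ℚ L →
      (∀ σ : GQ, (∀ x ∈ L, σ x = x) → π σ = 1) →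
      ∀ S : Finset ℕ,
        (∀ ℓ : ℕ, ℓ.Prime → ℓ ∉ S → ℓ ≠ p → W.IsGoodPrimeFor ℓ →
          ∀ A : ValuationSubring Qb, A.LiesOverPrime ℓ → ∀ σ : GQ, A.IsFrobeniusAt σ ℓ →
            π σ * π σ - ((W.apOfModel ℓ : ℤ) : ZMod p) • π σ
              + (ℓ : ZMod p) • (1 : Module.End (ZMod p) X) = 0) →
        ∃ f : TorsQ (WQ W) p →ₗ[ZMod p] X, Function.Injective f ∧
          ∀ (σ : GQ) (v : TorsQ (WQ W) p), f (σ • v) = π σ (f v)

/-- **L-REC from its inputs.** -/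
theorem stmt_Rec_of (hFD : Fermat.Agent.R.Stmt_FD)
    (hmain : Fermat.Agent.Lib.EllFinite.Stmt_main) (hBLR : Stmt_BLR) (hODD : Stmt_ODD) :
    Stmt_Rec := by
  intro W p _ hp2 hΔ hirr X _ _ _ π L hL hπ S hCH
  have hpp : p.Prime := Fact.out
  have hV := finrank_tors (p := p) hFD hmain hΔ
  haveI := finite_tors (p := p) hFD hmain hΔ
  obtain ⟨L₀, hL₀, hfix⟩ := exists_level (WQ W) p
  haveI := hL₀
  haveI := hL
  have hρ1 : ∀ τ : GQ, (∀ x ∈ L₀, τ x = x) → rhoW W p τ = 1 := by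
    intro τ hτ
    refine LinearMap.ext fun v => ?_
    rw [galoisRepModuleEnd_apply, Module.End.one_apply]
    exact hfix τ hτ v
  -- the Frobenius set
  let F : Set GQ := {σ | ∃ (ℓ : ℕ) (A : ValuationSubring Qb), ℓ.Prime ∧ ℓ ∉ S ∧ ℓ ≠ p ∧
    W.IsGoodPrimeFor ℓ ∧ A.LiesOverPrime ℓ ∧ A.IsFrobeniusAt σ ℓ}
  have hspan := span_rhoW_eq_top hFD hmain hODD hp2 hΔ hirr
  have hS : ∀ g : GQ, ∃ s ∈ F, ∃ j : ℕ, rhoW W p g = rhoW W p s ^ j ∧ π g = π s ^ j := by
    intro g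
    obtain ⟨ℓ, A, σ, j, hℓ, hℓS, hℓp, hgood, hA, hσ, hj⟩ :=
      exists_frob (p := p) hFD hΔ S (L₀ ⊔ L) inferInstance g
    refine ⟨σ, ⟨ℓ, A, hℓ, hℓS, hℓp, hgood, hA, hσ⟩, j, ?_, ?_⟩
    · rw [← map_pow]
      exact (map_eq_of_agree (rhoW W p) L₀ hρ1
        (fun x hx => hj x ((le_sup_left : L₀ ≤ L₀ ⊔ L) hx))).symm
    · rw [← map_pow]
      exact (map_eq_of_agree π L hπ
        (fun x hx => hj x ((le_sup_right : L ≤ L₀ ⊔ L) hx))).symm
  have hF : ∀ s ∈ F, CHRel (rhoW W p) π s := by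
    rintro σ ⟨ℓ, A, hℓ, hℓS, hℓp, hgood, hA, hσ⟩
    obtain ⟨-, htr, hdet⟩ := hmain W p ℓ hℓ (Ne.symm hℓp) hgood A hA σ hσ
    have h := hCH ℓ hℓ hℓS hℓp hgood A hA σ hσ
    unfold CHRel
    rw [galoisTrace_def] at htr
    rw [htr, hdet]
    exact h
  obtain ⟨f, hf, hequiv⟩ := stmt_BLR_Frob_of hBLR stmt_CHpow (ZMod p) (two_ne_zero_zmod hp2) GQ
    (TorsQ (WQ W) p) (rhoW W p) hV hspan X π F hS hF
  exact ⟨f, hf, fun σ v => hequiv σ v⟩

end Fermat.Agent.L.H52
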