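/-
Cluster L, package L-REC (helper52): congruence recovery in the shape consumed by the S44 wiring
(`Fermat.Agent.S44.Stmt_Recovery`, helper93).

`stmt_Recovery_of : Stmt_Rec → Stmt_Transport → S44.Stmt_Recovery`, where `Stmt_Transport` is the
Galois-equivariant identification of `E[p]` with the `p`-torsion of an integral model.
-/
import Fermat.Agent.L.H52_Rec
import Fermat.Agent.S44.Defs

set_option autoImplicit false

open WeierstrassCurve WeierstrassCurve.Affine WeierstrassCurve.Affine.Point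
open scoped WeierstrassCurve.Affine

namespace Fermat.Agent.L.H52

/-- **Transport along a change of variables**: `E[p]` and the `p`-torsion of an integral model
are isomorphic Galois modules. -/
def Stmt_Transport : Prop :=
  ∀ (E : WeierstrassCurve ℚ) (W : WeierstrassCurve ℤ) (p : ℕ), W.IsIntegralModelOf E →
    ∃ e : TorsQ E p ≃ₗ[ZMod p] TorsQ (WQ W) p,
      ∀ (σ : GQ) (v : TorsQ E p), e (σ • v) = σ • e v

/-- Irreducibility is transported. -/
theorem irreducible_of_transport {E : WeierstrassCurve ℚ} {W : WeierstrassCurve ℤ} {p : ℕ}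
    (e : TorsQ E p ≃ₗ[ZMod p] TorsQ (WQ W) p)
    (he : ∀ (σ : GQ) (v : TorsQ E p), e (σ • v) = σ • e v)
    (hirr : GaloisRepIsIrreducible (K := AlgebraicClosure ℚ) ℚ E.toAffine p) :
    GaloisRepIsIrreducible (K := AlgebraicClosure ℚ) ℚ (WQ W).toAffine p := by
  obtain ⟨hnt, hsub⟩ := hirr
  refine ⟨?_, fun N hN => ?_⟩
  · haveI := hnt
    exact e.toEquiv.symm.nontrivial
  · have hstab : IsGaloisStable ℚ (N.comap e.toLinearMap) := by
      intro σ x hx
      rw [Submodule.mem_comap] at hx ⊢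
      change e (σ • x) ∈ N
      rw [he]
      exact hN σ _ hx
    rcases hsub _ hstab with h | h
    · left
      rw [eq_bot_iff]
      intro y hy
      have : e.symm y ∈ N.comap e.toLinearMap := by
        rw [Submodule.mem_comap]
        change e (e.symm y) ∈ N
        rw [e.apply_symm_apply]
        exact hy
      rw [h, Submodule.mem_bot] at this
      rw [Submodule.mem_bot, ← e.apply_symm_apply y, this, _root_.map_zero]
    · right
      rw [eq_top_iff]
      intro y _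
      have : e.symm y ∈ N.comap e.toLinearMap := by rw [h]; exact Submodule.mem_top
      rw [Submodule.mem_comap] at this
      change e (e.symm y) ∈ N at this
      rwa [e.apply_symm_apply] at this

section Eigen

variable {p : ℕ} (H : Fermat.Agent.S44.HeckeGaloisModule p) (N : ℕ) (S : Finset ℕ) (t : ℕ → ZMod p)

/-- The common eigenspace of the operators `T ℓ` (`ℓ ∉ S`, `ℓ ∤ N`, `ℓ ≠ p`) with eigenvalues
`t ℓ`. -/
def eigSub : Submodule (ZMod p) H.J where
  carrier := {y | ∀ ℓ : ℕ, ℓ.Prime → ℓ ∉ S → ¬ ℓ ∣ N → ℓ ≠ p → H.T ℓ y = t ℓ • y}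
  add_mem' := fun {a b} ha hb ℓ h1 h2 h3 h4 => by
    rw [map_add, ha ℓ h1 h2 h3 h4, hb ℓ h1 h2 h3 h4, smul_add]
  zero_mem' := fun ℓ _ _ _ _ => by rw [_root_.map_zero, smul_zero]
  smul_mem' := fun c a ha ℓ h1 h2 h3 h4 => by
    rw [map_smul, ha ℓ h1 h2 h3 h4, smul_comm]

theorem mem_eigSub {y : H.J} :
    y ∈ eigSub H N S t ↔
      ∀ ℓ : ℕ, ℓ.Prime → ℓ ∉ S → ¬ ℓ ∣ N → ℓ ≠ p → H.T ℓ y = t ℓ • y := Iff.rfl

variable {H N S t}

theorem gal_mem_eigSub (hcomm : ∀ (σ : Fermat.Agent.S44.GQ) (ℓ : ℕ), H.gal σ * H.T ℓ = H.T ℓ * H.gal σ)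
    (σ : GQ) {y : H.J} (hy : y ∈ eigSub H N S t) : H.gal σ y ∈ eigSub H N S t := by
  intro ℓ h1 h2 h3 h4
  have h := congrArg (fun f : Module.End (ZMod p) H.J => f y) (hcomm σ ℓ)
  simp only [Module.End.mul_apply] at h
  rw [← h, hy ℓ h1 h2 h3 h4, map_smul]

/-- The Galois action on the eigenspace. -/
noncomputable def eigGal (hcomm : ∀ (σ : Fermat.Agent.S44.GQ) (ℓ : ℕ), H.gal σ * H.T ℓ = H.T ℓ * H.gal σ) :
    GQ →* Module.End (ZMod p) (eigSub H N S t) where
  toFun σ := (H.gal σ).restrict (fun _ hy => gal_mem_eigSub hcomm σ hy)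
  map_one' := by
    ext y
    simp
  map_mul' σ τ := by
    ext y
    simp

@[simp] theorem eigGal_apply_coe
    (hcomm : ∀ (σ : Fermat.Agent.S44.GQ) (ℓ : ℕ), H.gal σ * H.T ℓ = H.T ℓ * H.gal σ) (σ : GQ)
    (y : eigSub H N S t) : ((eigGal hcomm σ y : eigSub H N S t) : H.J) = H.gal σ y := rfl

end Eigen

/-- A model all of whose primes outside a finite set are good has non-zero discriminant. -/
theorem Δ_ne_zero_of_good {W : WeierstrassCurve ℤ} {S : Finset ℕ}
    (h : ∀ ℓ : ℕ, ℓ.Prime → ℓ ∉ S → W.IsGoodPrimeFor ℓ) : W.Δ ≠ 0 := by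
  intro h0
  obtain ⟨ℓ, hℓ1, hℓ2⟩ := Nat.exists_infinite_primes (S.sup id + 1)
  have hℓS : ℓ ∉ S := fun hmem => by
    have : ℓ ≤ S.sup id := Finset.le_sup (f := id) hmem
    omega
  exact h ℓ hℓ2 hℓS (by rw [h0]; exact dvd_zero _)

/-- **Congruence recovery in the shape of the S44 wiring.** -/
theorem stmt_Recovery_of (hRec : Stmt_Rec) (hTr : Stmt_Transport) :
    Fermat.Agent.S44.Stmt_Recovery := by
  intro p hp hp2 N hN H hcont hES E W hW hirr S hgood x hx0 hx
  haveI : Fact p.Prime := ⟨hp⟩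
  obtain ⟨hfin, ⟨F, hF, hFgal⟩, -, hcomm⟩ := hcont
  obtain ⟨e, he⟩ := hTr E W p hW
  have hirrW := irreducible_of_transport e he hirr
  have hΔ : W.Δ ≠ 0 := Δ_ne_zero_of_good hgood
  set t : ℕ → ZMod p := fun ℓ => ((W.apOfModel ℓ : ℤ) : ZMod p) with ht
  set X : Submodule (ZMod p) H.J := eigSub H N S t with hX
  have hxX : x ∈ X := fun ℓ h1 h2 h3 h4 => hx ℓ h1 h2 h3 h4
  haveI : Nontrivial X := ⟨⟨⟨x, hxX⟩, 0, fun h => hx0 (congrArg Subtype.val h)⟩⟩
  have hπ : ∀ σ : GQ, (∀ z ∈ F, σ z = z) → eigGal (N := N) (S := S) (t := t) hcomm σ = 1 := by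
    intro σ hσ
    ext y
    rw [eigGal_apply_coe, hFgal σ hσ]
    rfl
  obtain ⟨f, hf, hfeq⟩ := hRec W p hp2 hΔ hirrW X (eigGal hcomm) F hF hπ (S ∪ N.primeFactors) (by
    intro ℓ hℓ hℓS hℓp _ A hA σ hσ
    rw [Finset.mem_union, not_or] at hℓS
    have hℓN : ¬ ℓ ∣ N := fun hdvd => hℓS.2 (Nat.mem_primeFactors.2 ⟨hℓ, hdvd, hN.ne'⟩)
    have hℓNp : ¬ ℓ ∣ N * p := fun hdvd => by
      rcases (Nat.Prime.dvd_mul hℓ).1 hdvd with h | h
      · exact hℓN h
      · exact hℓp ((Nat.prime_dvd_prime_iff_eq hℓ hp).1 h)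
    have h := (hES ℓ hℓ hℓNp A hA).2 σ hσ
    ext y
    have hy := congrArg (fun g : Module.End (ZMod p) H.J => g (y : H.J)) h
    simp only [LinearMap.add_apply, LinearMap.sub_apply, Module.End.mul_apply,
      LinearMap.smul_apply, Module.End.one_apply, LinearMap.zero_apply] at hy
    have hT : H.T ℓ (H.gal σ (y : H.J)) = t ℓ • H.gal σ (y : H.J) :=
      gal_mem_eigSub hcomm σ y.2 ℓ hℓ hℓS.1 hℓN hℓp
    rw [hT] at hy
    simp only [LinearMap.add_apply, LinearMap.sub_apply, Module.End.mul_apply,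
      LinearMap.smul_apply, Module.End.one_apply, LinearMap.zero_apply, Submodule.coe_add,
      Submodule.coe_sub, Submodule.coe_smul, Submodule.coe_zero]
    exact hy)
  refine ⟨X.subtype ∘ₗ f ∘ₗ e.toLinearMap, ?_, ?_, ?_⟩
  · exact X.injective_subtype.comp (hf.comp e.injective)
  · intro σ v
    simp only [LinearMap.coe_comp, Function.comp_apply, LinearEquiv.coe_coe, Submodule.subtype_apply]
    rw [he, hfeq, eigGal_apply_coe]
  · intro ℓ h1 h2 h3 h4 v
    exact (f (e v)).2 ℓ h1 h2 h3 h4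

end Fermat.Agent.L.H52
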