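/-
Cluster L, package L-REC (helper52): congruence recovery, final assembly.

* `stmt_Rec : Stmt_FD → EllFinite.Stmt_main → Stmt_Rec`   (generic `𝔽_p` form, `H52_Rec.lean`)
* `stmt_Recovery : Stmt_FD → EllFinite.Stmt_main → S44.Stmt_Recovery`   (shape of the S44 wiring)

Only the two shared library items 61 (Frobenius density) and 62 (trace and determinant of
Frobenius on `E[p]`) remain as hypotheses.
-/
import Fermat.Agent.L.H52_Recovery
import Fermat.Agent.L.H19_BLR
import Fermat.Agent.L.H19_Odd
import Fermat.Agent.L.H19_TorsLevel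

set_option autoImplicit false

open WeierstrassCurve WeierstrassCurve.Affine WeierstrassCurve.Affine.Point
open scoped WeierstrassCurve.Affine

namespace Fermat.Agent.L.H52

/-- Transport of `E[p]` to an integral model (helper19's `exists_torsEquiv`). -/
theorem stmt_Transport : Stmt_Transport := by
  intro E W p hW
  obtain ⟨C, hC⟩ := hW
  exact Fermat.Agent.L.H19.exists_torsEquiv (K := AlgebraicClosure ℚ) hC p

/-- **L-REC**, generic form, from items 61 and 62. -/
theorem stmt_Rec (hFD : Fermat.Agent.R.Stmt_FD) (hmain : Fermat.Agent.Lib.EllFinite.Stmt_main) :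
    Stmt_Rec :=
  stmt_Rec_of hFD hmain Fermat.Agent.L.H19.stmt_BLR Fermat.Agent.L.H19.stmt_ODD

/-- **L-REC**, in the shape of the S44 wiring, from items 61 and 62. -/
theorem stmt_Recovery (hFD : Fermat.Agent.R.Stmt_FD)
    (hmain : Fermat.Agent.Lib.EllFinite.Stmt_main) : Fermat.Agent.S44.Stmt_Recovery :=
  stmt_Recovery_of (stmt_Rec hFD hmain) stmt_Transport

end Fermat.Agent.L.H52
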