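/-
Cluster L, package L-REC (helper52): congruence recovery, UNCONDITIONAL.

* `recovery : Fermat.Agent.S44.Stmt_Recovery`   (package B of the S44 wiring)
* `rec_main : Stmt_Rec`                          (generic `𝔽_p` form)
* `det_complexConjugation_main`, `span_rhoW_main`, `finrank_tors_main`

Inputs: item 61 (`Lib/FrobDensity/Main.lean`), item 62 (`Lib/EllFinite/Main.lean`),
helper19's `stmt_BLR`, `stmt_ODD`, `exists_torsEquiv`.
-/
import Fermat.Agent.L.H52_RecFinal
import Fermat.Agent.Lib.FrobDensity.Main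
import Fermat.Agent.Lib.EllFinite.Main

set_option autoImplicit false

open WeierstrassCurve WeierstrassCurve.Affine WeierstrassCurve.Affine.Point
open scoped WeierstrassCurve.Affine

namespace Fermat.Agent.L.H52

/-- **L-REC**, generic form. -/
theorem rec_main : Stmt_Rec :=
  stmt_Rec Fermat.Agent.Lib.FrobDensity.stmt_FD Fermat.Agent.Lib.EllFinite.stmt_main

/-- **Package B of the S44 wiring** (congruence recovery). -/
theorem recovery : Fermat.Agent.S44.Stmt_Recovery :=
  stmt_Recovery Fermat.Agent.Lib.FrobDensity.stmt_FD Fermat.Agent.Lib.EllFinite.stmt_main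

/-- `E[p]` has dimension `2` (model with non-zero discriminant). -/
theorem finrank_tors_main {W : WeierstrassCurve ℤ} {p : ℕ} [Fact p.Prime] (hΔ : W.Δ ≠ 0) :
    Module.finrank (ZMod p) (TorsQ (WQ W) p) = 2 :=
  finrank_tors Fermat.Agent.Lib.FrobDensity.stmt_FD Fermat.Agent.Lib.EllFinite.stmt_main hΔ

/-- `det ρ(c) = -1` for the complex conjugation `c`. -/
theorem det_complexConjugation_main {W : WeierstrassCurve ℤ} {p : ℕ} [Fact p.Prime]
    (hΔ : W.Δ ≠ 0) : LinearMap.det (rhoW W p complexConjugation) = -1 :=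
  det_complexConjugation Fermat.Agent.Lib.FrobDensity.stmt_FD
    Fermat.Agent.Lib.EllFinite.stmt_main hΔ

/-- Burnside for an irreducible `E[p]`, `p` odd. -/
theorem span_rhoW_main {W : WeierstrassCurve ℤ} {p : ℕ} [Fact p.Prime] (hp2 : p ≠ 2)
    (hΔ : W.Δ ≠ 0)
    (hirr : GaloisRepIsIrreducible (K := AlgebraicClosure ℚ) ℚ (WQ W).toAffine p) :
    Submodule.span (ZMod p) (Set.range (rhoW W p)) = ⊤ :=
  span_rhoW_eq_top Fermat.Agent.Lib.FrobDensity.stmt_FD Fermat.Agent.Lib.EllFinite.stmt_main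
    Fermat.Agent.L.H19.stmt_ODD hp2 hΔ hirr

end Fermat.Agent.L.H52
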