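import Mathlib
import Fermat.Prelude.Def_EllipticCurve_FrobeniusTrace
import Fermat.Prelude.Def_FLTPrelim_GaloisRep
import Fermat.Agent.Lib.PointVariableChange

/-!
# Torsion of an elliptic curve as a Galois module: transport and finite level (helper19)

Shared by S41 package I3 and the congruence-recovery packages of cluster L.

* `torsEquiv hC n` : for `C • E = E'` (curves over `F`, points over an extension `K`) the
  `ZMod n`-linear equivalence `E'[n](K) ≃ E[n](K)`; it is `Gal(K/F)`-equivariant
  (`torsEquiv_smul`).  Consequences: `irreducible_of_variableChange`, `finrank_tors_eq`,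
  `galoisTrace_eq`, `det_galois_eq`.
* `exists_finite_level` : if `E[n](K)` is finite and `K/F` is algebraic, there is a
  finite-dimensional intermediate field `L` such that `g, g'` agreeing on `L` act equally on
  `E[n](K)`.
-/

set_option autoImplicit false

namespace Fermat.Agent.L.H19

open WeierstrassCurve WeierstrassCurve.Affine WeierstrassCurve.Affine.Point
open Fermat.Agent.Lib.PointVariableChange

section Transport

variable {F K : Type*} [Field F] [Field K] [Algebra F K] [DecidableEq K]
  {E E' : WeierstrassCurve F} {C : VariableChange F}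

/-- The `n`-torsion of `E(K)`. -/
abbrev TorsK (K : Type*) [Field K] [Algebra F K] [DecidableEq K] (E : WeierstrassCurve F) (n : ℕ) :
    Type _ :=
  Submodule.torsionBy ℤ (E.toAffine⁄K).Point n

omit [DecidableEq K] in
lemma baseChange_eq (hC : C • E = E') :
    (E'.toAffine⁄K) = ((C.map (algebraMap F K)) • (E.toAffine⁄K)).toAffine := by
  show E'.map (algebraMap F K) = (C.map (algebraMap F K)) • (E.map (algebraMap F K))
  rw [map_variableChange, hC]

/-- The isomorphism on `K`-points induced by a change of variables over `F`. -/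
noncomputable def ptEquiv (hC : C • E = E') : (E'.toAffine⁄K).Point ≃+ (E.toAffine⁄K).Point :=
  equivOfEq (baseChange_eq (K := K) hC)

lemma ptEquiv_smul (hC : C • E = E') (σ : K ≃ₐ[F] K) (P : (E'.toAffine⁄K).Point) :
    ptEquiv hC (σ • P) = σ • ptEquiv hC P := by
  rcases P with _ | ⟨x, y, h⟩
  · change ptEquiv hC (σ • 0) = σ • ptEquiv hC 0
    rw [smul_zero, _root_.map_zero, smul_zero]
  · rw [algEquiv_smul_def, Point.map_some, algEquiv_smul_def]
    unfold ptEquiv
    rw [equivOfEq_some, equivOfEq_some, Point.map_some]
    congr 1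
    · simp [vcX]
    · simp [vcY]

/-- The isomorphism on `n`-torsion points induced by a change of variables, additive version. -/
noncomputable def torsAddEquiv (hC : C • E = E') (n : ℕ) : TorsK K E' n ≃+ TorsK K E n where
  toFun x := ⟨ptEquiv hC x.1, by
    have hx := x.2
    rw [Submodule.mem_torsionBy_iff] at hx ⊢
    rw [← map_zsmul, hx, _root_.map_zero]⟩
  invFun y := ⟨(ptEquiv hC).symm y.1, by
    have hy := y.2
    rw [Submodule.mem_torsionBy_iff] at hy ⊢
    rw [← map_zsmul, hy, _root_.map_zero]⟩
  left_inv x := Subtype.ext (by simp)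
  right_inv y := Subtype.ext (by simp)
  map_add' x y := Subtype.ext (by simp)

/-- The `ZMod n`-linear isomorphism `E'[n](K) ≃ E[n](K)` induced by a change of variables
`C • E = E'` over `F`. -/
noncomputable def torsEquiv (hC : C • E = E') (n : ℕ) : TorsK K E' n ≃ₗ[ZMod n] TorsK K E n :=
  { torsAddEquiv hC n with
    map_smul' := fun c x =>
      (AddMonoidHom.toZModLinearMap n (torsAddEquiv (K := K) hC n).toAddMonoidHom).map_smul c x }

@[simp] lemma torsEquiv_coe (hC : C • E = E') (n : ℕ) (x : TorsK K E' n) :
    ((torsEquiv hC n x : TorsK K E n) : (E.toAffine⁄K).Point) = ptEquiv hC x.1 := rfl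

/-- The torsion isomorphism is Galois-equivariant. -/
lemma torsEquiv_smul (hC : C • E = E') (n : ℕ) (σ : K ≃ₐ[F] K) (x : TorsK K E' n) :
    torsEquiv hC n (σ • x) = σ • torsEquiv hC n x :=
  Subtype.ext (ptEquiv_smul hC σ x.1)

lemma torsEquiv_symm_smul (hC : C • E = E') (n : ℕ) (σ : K ≃ₐ[F] K) (y : TorsK K E n) :
    (torsEquiv hC n).symm (σ • y) = σ • (torsEquiv hC n).symm y := by
  apply (torsEquiv hC n).injective
  rw [LinearEquiv.apply_symm_apply, torsEquiv_smul, LinearEquiv.apply_symm_apply]

/-- (d), in the shape used by the congruence-recovery packages. -/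
theorem exists_torsEquiv (hC : C • E = E') (n : ℕ) :
    ∃ e : TorsK K E n ≃ₗ[ZMod n] TorsK K E' n, ∀ (σ : K ≃ₐ[F] K) (v : TorsK K E n),
      e (σ • v) = σ • e v :=
  ⟨(torsEquiv hC n).symm, torsEquiv_symm_smul hC n⟩

/-! ### Transport of irreducibility, dimension, trace and determinant along an equivariant
linear equivalence -/

section Equivariant

variable {n : ℕ} (e : TorsK K E' n ≃ₗ[ZMod n] TorsK K E n)
  (he : ∀ (σ : K ≃ₐ[F] K) (x : TorsK K E' n), e (σ • x) = σ • e x)

include he in
lemma galoisRepModuleEnd_conj (σ : K ≃ₐ[F] K) :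
    galoisRepModuleEnd F E.toAffine n σ = e.conj (galoisRepModuleEnd F E'.toAffine n σ) := by
  apply LinearMap.ext
  intro y
  rw [LinearEquiv.conj_apply_apply, galoisRepModuleEnd_apply, galoisRepModuleEnd_apply, he,
    LinearEquiv.apply_symm_apply]

include he in
lemma galoisTrace_transport (σ : K ≃ₐ[F] K) :
    galoisTrace F E.toAffine n σ = galoisTrace F E'.toAffine n σ := by
  rw [galoisTrace_def, galoisTrace_def, galoisRepModuleEnd_conj e he, LinearMap.trace_conj']

include he in
lemma det_transport (σ : K ≃ₐ[F] K) :
    LinearMap.det (galoisRepModuleEnd F E.toAffine n σ)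
      = LinearMap.det (galoisRepModuleEnd F E'.toAffine n σ) := by
  rw [galoisRepModuleEnd_conj e he]
  have : e.conj (galoisRepModuleEnd F E'.toAffine n σ)
      = (e : TorsK K E' n →ₗ[ZMod n] TorsK K E n) ∘ₗ (galoisRepModuleEnd F E'.toAffine n σ) ∘ₗ
        (e.symm : TorsK K E n →ₗ[ZMod n] TorsK K E' n) := rfl
  rw [this, LinearMap.det_conj]

include he in
lemma irreducible_transport (h : GaloisRepIsIrreducible (K := K) F E.toAffine n) :
    GaloisRepIsIrreducible (K := K) F E'.toAffine n := by
  obtain ⟨hnt, hirr⟩ := h
  refine ⟨e.toEquiv.nontrivial, fun N hN => ?_⟩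
  have hst : IsGaloisStable F (N.map e.toLinearMap) := by
    intro σ y hy
    obtain ⟨x, hx, rfl⟩ := hy
    exact ⟨σ • x, hN σ x hx, he σ x⟩
  rcases hirr _ hst with h0 | h1
  · left
    exact (Submodule.map_eq_bot_iff (e := e)).mp h0
  · right
    rw [eq_top_iff]
    intro x _
    have hx : e x ∈ N.map e.toLinearMap := by rw [h1]; trivial
    obtain ⟨x', hx', hxx⟩ := hx
    rwa [← e.injective hxx]

end Equivariant

/-- Irreducibility of the mod `n` representation is invariant under change of variables. -/
theorem irreducible_of_variableChange (hC : C • E = E') (n : ℕ)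
    (h : GaloisRepIsIrreducible (K := K) F E.toAffine n) :
    GaloisRepIsIrreducible (K := K) F E'.toAffine n :=
  irreducible_transport (torsEquiv hC n) (torsEquiv_smul hC n) h

theorem irreducible_of_variableChange' (hC : C • E = E') (n : ℕ)
    (h : GaloisRepIsIrreducible (K := K) F E'.toAffine n) :
    GaloisRepIsIrreducible (K := K) F E.toAffine n :=
  irreducible_transport (torsEquiv hC n).symm (torsEquiv_symm_smul hC n) h

theorem finrank_tors_eq (hC : C • E = E') (n : ℕ) :
    Module.finrank (ZMod n) (TorsK K E' n) = Module.finrank (ZMod n) (TorsK K E n) :=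
  (torsEquiv hC n).finrank_eq

theorem galoisTrace_eq (hC : C • E = E') (n : ℕ) (σ : K ≃ₐ[F] K) :
    galoisTrace F E.toAffine n σ = galoisTrace F E'.toAffine n σ :=
  galoisTrace_transport (torsEquiv hC n) (torsEquiv_smul hC n) σ

theorem det_galois_eq (hC : C • E = E') (n : ℕ) (σ : K ≃ₐ[F] K) :
    LinearMap.det (galoisRepModuleEnd F E.toAffine n σ)
      = LinearMap.det (galoisRepModuleEnd F E'.toAffine n σ) :=
  det_transport (torsEquiv hC n) (torsEquiv_smul hC n) σ

end Transport

/-! ### Finite level -/

section FiniteLevel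

variable {F K : Type*} [Field F] [Field K] [Algebra F K] [DecidableEq K]

/-- The set of coordinates of a point. -/
def coords {W : Affine K} : W.Point → Set K
  | .zero => ∅
  | .some x y _ => {x, y}

omit [DecidableEq K] in
lemma coords_finite {W : Affine K} (P : W.Point) : (coords P).Finite := by
  cases P <;> simp [coords]

/-- (c) If `E[n](K)` is finite (`K/F` algebraic) then the Galois action on it factors through a
finite-dimensional intermediate field: automorphisms agreeing there act equally on `E[n](K)`. -/
theorem exists_finite_level [Algebra.IsAlgebraic F K] (E : WeierstrassCurve F) (n : ℕ)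
    [Finite (TorsK K E n)] :
    ∃ L : IntermediateField F K, FiniteDimensional F L ∧
      ∀ g g' : K ≃ₐ[F] K, (∀ x ∈ L, g x = g' x) → ∀ v : TorsK K E n, g • v = g' • v := by
  let T : Set K := ⋃ v : TorsK K E n, coords v.1
  have hT : T.Finite := Set.finite_iUnion (fun v => coords_finite v.1)
  refine ⟨IntermediateField.adjoin F T, ?_, ?_⟩
  · have : Finite T := hT.to_subtype
    exact IntermediateField.finiteDimensional_adjoin
      (fun x _ => (Algebra.IsAlgebraic.isAlgebraic x).isIntegral)
  · intro g g' hgg' v
    apply Subtype.ext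
    change g • v.1 = g' • v.1
    rcases hv : v.1 with _ | ⟨x, y, h⟩
    · rfl
    · have hx : x ∈ IntermediateField.adjoin F T :=
        IntermediateField.subset_adjoin F T (Set.mem_iUnion.mpr ⟨v, by rw [hv]; simp [coords]⟩)
      have hy : y ∈ IntermediateField.adjoin F T :=
        IntermediateField.subset_adjoin F T (Set.mem_iUnion.mpr ⟨v, by rw [hv]; simp [coords]⟩)
      rw [algEquiv_smul_def, algEquiv_smul_def, Point.map_some, Point.map_some]
      congr 1
      · exact hgg' x hx
      · exact hgg' y hy

/-- (c), in the shape used by the congruence-recovery packages. -/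
theorem exists_finite_level_fix [Algebra.IsAlgebraic F K] (E : WeierstrassCurve F) (n : ℕ)
    [Finite (TorsK K E n)] :
    ∃ L : IntermediateField F K, FiniteDimensional F L ∧
      ∀ σ : K ≃ₐ[F] K, (∀ x ∈ L, σ x = x) → ∀ v : TorsK K E n, σ • v = v := by
  obtain ⟨L, hL, h⟩ := exists_finite_level (K := K) E n
  exact ⟨L, hL, fun σ hσ v => by simpa using h σ 1 (fun x hx => by simpa using hσ x hx) v⟩

end FiniteLevel

end Fermat.Agent.L.H19
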