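import Mathlib

/-!
# FROB-FIN (helper28), part 1: the fixed vector lemma (Lang's theorem, linear form)

`exists_fixed_of_semilinear`: `k` algebraically closed, `σ : k →+* k`, `σ a = a ^ Q`, `Q > 1`,
`V ≠ 0` finite-dimensional, `Ψ : V →+ V` injective with `Ψ (a • v) = σ a • Ψ v`.  Then `Ψ` has
a non-zero fixed vector.

Proof: `w i = Ψ^i v₀`; `m` minimal with `w m = ∑_{i<m} b i • w i`; `w 0, …, w (m-1)` are
linearly independent; look for `∑_{i<m} c i • w i` with `c j = ∑_{i≤j} σ^{j-i}(b i) σ^{j-i+1}(c)`;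
it is fixed iff `c (m-1) = c`, a polynomial equation `c · G₁(c) = 0` with `G₁(0) = -1` and `G₁`
not constant.
-/

set_option autoImplicit false

noncomputable section

namespace Fermat.Agent.L.H28

open Polynomial

section Comb

variable {k V : Type*} [Field k] [AddCommGroup V] [Module k V]

/-- From a non-trivial relation among `w 0, …, w (N-1)`: some `w j` is a combination of the
earlier ones. -/
theorem exists_comb_of_relation (w : ℕ → V) :
    ∀ (N : ℕ) (g : ℕ → k), ∑ i ∈ Finset.range N, g i • w i = 0 → (∃ i < N, g i ≠ 0) →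
      ∃ j < N, ∃ b : ℕ → k, w j = ∑ i ∈ Finset.range j, b i • w i := by
  intro N
  induction N with
  | zero =>
    rintro g - ⟨i, hi, -⟩
    exact absurd hi (Nat.not_lt_zero i)
  | succ N ih =>
    intro g hg hex
    rw [Finset.sum_range_succ] at hg
    by_cases hN : g N = 0
    · rw [hN, zero_smul, add_zero] at hg
      obtain ⟨i, hi, hgi⟩ := hex
      have hiN : i < N := by
        rcases Nat.lt_succ_iff_lt_or_eq.mp hi with h | h
        · exact h
        · exact absurd (h ▸ hN) hgi
      obtain ⟨j, hj, b, hb⟩ := ih g hg ⟨i, hiN, hgi⟩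
      exact ⟨j, Nat.lt_succ_of_lt hj, b, hb⟩
    · refine ⟨N, Nat.lt_succ_self N, fun i => -(g N)⁻¹ * g i, ?_⟩
      have h1 : g N • w N = -∑ i ∈ Finset.range N, g i • w i := eq_neg_of_add_eq_zero_right hg
      have h2 : w N = (g N)⁻¹ • (g N • w N) := by
        rw [smul_smul, inv_mul_cancel₀ hN, one_smul]
      rw [h2, h1, smul_neg, Finset.smul_sum, ← Finset.sum_neg_distrib]
      refine Finset.sum_congr rfl fun i _ => ?_
      show -((g N)⁻¹ • g i • w i) = (-(g N)⁻¹ * g i) • w i
      rw [smul_smul, neg_mul, neg_smul]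

end Comb

variable {k V : Type*} [Field k] [IsAlgClosed k] [AddCommGroup V] [Module k V]
  [FiniteDimensional k V] [Nontrivial V]

/-- **Fixed vector lemma**: an injective `σ`-semilinear additive self-map of a non-zero
finite-dimensional space over an algebraically closed field, `σ a = a ^ Q`, `Q > 1`, has a
non-zero fixed vector. -/
theorem exists_fixed_of_semilinear (σ : k →+* k) (Q : ℕ) (hQ : 1 < Q) (hσ : ∀ a, σ a = a ^ Q)
    (Ψ : V →+ V) (hΨ : ∀ (a : k) (v : V), Ψ (a • v) = σ a • Ψ v)
    (hinj : Function.Injective Ψ) : ∃ v : V, v ≠ 0 ∧ Ψ v = v := by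
  classical
  obtain ⟨v₀, hv₀⟩ := exists_ne (0 : V)
  set w : ℕ → V := fun i => Ψ^[i] v₀ with hw
  have hw0 : w 0 = v₀ := rfl
  have hwS : ∀ i, w (i + 1) = Ψ (w i) := fun i => Function.iterate_succ_apply' Ψ i v₀
  have hwne : ∀ i, w i ≠ 0 := by
    intro i
    induction i with
    | zero => exact hv₀
    | succ i ih =>
      rw [hwS]
      intro h0
      exact ih (hinj (by rw [h0, map_zero]))
  -- iterates of `σ`
  have hσit : ∀ (j : ℕ) (a : k), σ^[j] a = a ^ (Q ^ j) := by
    intro j
    induction j with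
    | zero => intro a; simp
    | succ j ih =>
      intro a
      rw [Function.iterate_succ_apply', ih, hσ, ← pow_mul, pow_succ]
  have hσinj : Function.Injective σ := σ.injective
  -- existence of a combination
  set n := Module.finrank k V with hn
  have hdep : ¬ LinearIndependent k (fun i : Fin (n + 1) => w i) := by
    intro hli
    have := hli.fintype_card_le_finrank
    rw [Fintype.card_fin] at this
    omega
  obtain ⟨g, hg, i₀, hi₀⟩ := Fintype.not_linearIndependent_iff.mp hdep
  have hP : ∃ j, ∃ b : ℕ → k, w j = ∑ i ∈ Finset.range j, b i • w i := by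
    let g' : ℕ → k := fun i => if h : i < n + 1 then g ⟨i, h⟩ else 0
    have hg' : ∑ i ∈ Finset.range (n + 1), g' i • w i = 0 := by
      rw [← hg, ← Fin.sum_univ_eq_sum_range (fun i => g' i • w i) (n + 1)]
      refine Finset.sum_congr rfl fun i _ => ?_
      simp only [g', i.2, dif_pos, Fin.eta]
    obtain ⟨j, -, b, hb⟩ := exists_comb_of_relation w (n + 1) g' hg'
      ⟨i₀, i₀.2, by simp only [g', i₀.2, dif_pos, Fin.eta]; exact hi₀⟩
    exact ⟨j, b, hb⟩
  set m := Nat.find hP with hm
  obtain ⟨b, hb⟩ := Nat.find_spec hP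
  change w m = ∑ i ∈ Finset.range m, b i • w i at hb
  have hmin : ∀ j < m, ¬ ∃ b : ℕ → k, w j = ∑ i ∈ Finset.range j, b i • w i :=
    fun j hj => Nat.find_min hP hj
  have hindep : ∀ g : ℕ → k, ∑ i ∈ Finset.range m, g i • w i = 0 → ∀ i < m, g i = 0 := by
    intro g hg i hi
    by_contra hgi
    obtain ⟨j, hj, b', hb'⟩ := exists_comb_of_relation w m g hg ⟨i, hi, hgi⟩
    exact hmin j hj ⟨b', hb'⟩
  have hm0 : m ≠ 0 := by
    intro h0
    rw [h0, Finset.range_zero, Finset.sum_empty] at hb
    exact hwne 0 hb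
  obtain ⟨m', hm'⟩ := Nat.exists_eq_add_one_of_ne_zero hm0
  -- some `b i` is non-zero
  have hbne : ∃ i < m, b i ≠ 0 := by
    by_contra hcon
    push Not at hcon
    apply hwne m
    rw [hb]
    refine Finset.sum_eq_zero fun i hi => ?_
    rw [hcon i (Finset.mem_range.mp hi), zero_smul]
  obtain ⟨i₁, hi₁, hbi₁⟩ := hbne
  -- the polynomial
  set β : ℕ → k := fun i => σ^[m' - i] (b i) with hβ
  set e : ℕ → ℕ := fun i => Q ^ (m - i) - 1 with he
  have hQpos : 0 < Q := by omega
  have hepos : ∀ i < m, 1 ≤ e i := by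
    intro i hi
    have h1 : Q ^ 1 ≤ Q ^ (m - i) := Nat.pow_le_pow_right hQpos (by omega)
    rw [pow_one] at h1
    simp only [he]
    omega
  have heinj : ∀ i < m, ∀ j < m, e i = e j → i = j := by
    intro i hi j hj hij
    simp only [he] at hij
    have h1 : 1 ≤ Q ^ (m - i) := Nat.one_le_pow _ _ hQpos
    have h2 : 1 ≤ Q ^ (m - j) := Nat.one_le_pow _ _ hQpos
    have h3 : Q ^ (m - i) = Q ^ (m - j) := by omega
    have h4 := Nat.pow_right_injective (show 2 ≤ Q by omega) h3
    omega
  set G₁ : k[X] := ∑ i ∈ Finset.range m, C (β i) * X ^ e i - 1 with hG₁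
  have hcoeff : G₁.coeff (e i₁) = β i₁ := by
    rw [hG₁, coeff_sub, finsetSum_coeff, coeff_one,
      if_neg (by have := hepos i₁ hi₁; omega), sub_zero,
      Finset.sum_eq_single i₁]
    · rw [coeff_C_mul_X_pow, if_pos rfl]
    · intro j hj hji
      rw [coeff_C_mul_X_pow, if_neg]
      intro h
      exact hji (heinj j (Finset.mem_range.mp hj) i₁ hi₁ h.symm)
    · intro h
      exact absurd (Finset.mem_range.mpr hi₁) h
  have hβne : β i₁ ≠ 0 := by
    simp only [hβ]
    intro h0
    apply hbi₁
    have hinjit : Function.Injective (σ^[m' - i₁]) := hσinj.iterate _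
    apply hinjit
    rw [h0, iterate_map_zero]
  have hdeg : G₁.degree ≠ 0 := by
    intro h0
    have h1 : G₁.natDegree = 0 := natDegree_eq_of_degree_eq_some (by simpa using h0)
    have h2 : e i₁ ≤ G₁.natDegree := le_natDegree_of_ne_zero (by rw [hcoeff]; exact hβne)
    have := hepos i₁ hi₁
    omega
  obtain ⟨c, hc⟩ := IsAlgClosed.exists_root G₁ hdeg
  have hGc : ∑ i ∈ Finset.range m, β i * c ^ e i = 1 := by
    have h := hc
    rw [IsRoot.def, hG₁, eval_sub, eval_finsetSum, eval_one, sub_eq_zero] at h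
    rw [← h]
    refine Finset.sum_congr rfl fun i _ => ?_
    rw [eval_mul, eval_C, eval_pow, eval_X]
  have hc0 : c ≠ 0 := by
    rintro rfl
    have : ∑ i ∈ Finset.range m, β i * (0 : k) ^ e i = 0 := by
      refine Finset.sum_eq_zero fun i hi => ?_
      rw [zero_pow (by have := hepos i (Finset.mem_range.mp hi); omega), mul_zero]
    rw [this] at hGc
    exact zero_ne_one hGc
  -- the coefficients
  set cc : ℕ → k := fun j => ∑ i ∈ Finset.range (j + 1), σ^[j - i] (b i) * σ^[j - i + 1] c
    with hcc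
  have hcc0 : cc 0 = b 0 * σ c := by
    simp only [hcc]
    rw [Finset.sum_range_one]
    simp
  have hccS : ∀ j, cc (j + 1) = σ (cc j) + σ c * b (j + 1) := by
    intro j
    simp only [hcc]
    rw [Finset.sum_range_succ _ (j + 1), map_sum]
    congr 1
    · refine Finset.sum_congr rfl fun i hi => ?_
      have hij : i ≤ j := Nat.lt_succ_iff.mp (Finset.mem_range.mp hi)
      rw [map_mul, ← Function.iterate_succ_apply' σ, ← Function.iterate_succ_apply' σ,
        show j + 1 - i = (j - i) + 1 by omega]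
    · simp [mul_comm]
  have hcclast : cc m' = c := by
    simp only [hcc]
    have h1 : ∀ i ∈ Finset.range (m' + 1),
        σ^[m' - i] (b i) * σ^[m' - i + 1] c = c * (β i * c ^ e i) := by
      intro i hi
      have hi' : i < m := by rw [hm']; exact Finset.mem_range.mp hi
      have h2 : Q ^ (m' - i + 1) = e i + 1 := by
        simp only [he]
        have h3 : 1 ≤ Q ^ (m - i) := Nat.one_le_pow _ _ hQpos
        rw [show m - i = m' - i + 1 by omega] at h3 ⊢
        omega
      rw [hσit (m' - i + 1) c, h2, pow_succ]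
      simp only [hβ]
      ring
    rw [Finset.sum_congr rfl h1, ← Finset.mul_sum, ← hm', hGc, mul_one]
  -- the fixed vector
  refine ⟨∑ i ∈ Finset.range m, cc i • w i, ?_, ?_⟩
  · intro h0
    have := hindep cc h0 m' (by omega)
    rw [hcclast] at this
    exact hc0 this
  · rw [map_sum]
    have h1 : ∀ i ∈ Finset.range m, Ψ (cc i • w i) = σ (cc i) • w (i + 1) := by
      intro i _
      rw [hΨ, hwS]
    rw [Finset.sum_congr rfl h1, hm', Finset.sum_range_succ, ← hm', hb, hcclast, hm',
      Finset.sum_range_succ' (fun i => cc i • w i), Finset.sum_range_succ' (fun i => b i • w i),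
      hcc0, smul_add, Finset.smul_sum, ← add_assoc, ← Finset.sum_add_distrib]
    congr 1
    · refine Finset.sum_congr rfl fun i _ => ?_
      rw [hccS, add_smul, smul_smul]
    · rw [smul_smul, mul_comm]

end Fermat.Agent.L.H28
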