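import Fermat.Agent.S35.H89_FrobFinStmt
import Fermat.Agent.RED.H17_Red
import Fermat.Agent.L.H28_FixedVec

/-!
# FROB-FIN (helper28): finitely many Frobenius-fixed divisor classes

`stmt_FrobFin : Fermat.Agent.S35.H89.Stmt_FrobFin` (statement of helper89): `E / k` a function
field over an algebraically closed field (`FFHyp`, Riemann's theorem `IsGenus`), `Φ` a semilinear
automorphism with `Φ a = a ^ Q` on `k` (`Q > 1`) fixing a non-constant function `x`.  Then
`{y ∈ Pic⁰(E) | Φ y = y}` is finite.  (Input (c) of the LIFT-EIG route of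
`NOTES/plan/L_S43_BADQ.md`, lead's note 00:30Z.)

Proof: `A = g · (poles of x)` is `Φ`-invariant of degree `≥ g`.  For a fixed class `[D]`,
`Φ D = D + div u`, the map `f ↦ u · Φ f` is an injective semilinear self-map of `L(D + A) ≠ 0`;
a fixed vector `f` (`H28_FixedVec`) gives `E' = D + A + div f ≥ 0`, `Φ`-invariant, of degree
`d = deg A`, `[E' - A] = [D]`.  The places in the support of `E'` are fixed by `Φ ^ N` for some
`1 ≤ N ≤ d`; a place fixed by `Φ ^ N` is a pole of `x` or a zero of `x - a` with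
`a ^ (Q ^ N) = a`: finitely many.
-/

set_option autoImplicit false
set_option linter.style.haveILetI false
set_option maxHeartbeats 1000000

noncomputable section

open AlgebraicCurve

attribute [local instance] Classical.propDecidable

namespace Fermat.Agent.L.H28

open Fermat.Agent.RED.H17 Fermat.Agent.RED

local notation "L" => riemannRochSpace

variable {k E : Type*} [Field k] [Field E] [Algebra k E]

/-! ### Generalities -/

/-- Orders of `Φ f`. -/
theorem ord_smul_eq (Φ : SemilinearAut k E) (v : Place k E) (f : E) :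
    v.ord (Φ • f) = (Φ⁻¹ • v).ord f := by
  have := SemilinearAut.ord_smul Φ (Φ⁻¹ • v) f
  rwa [smul_inv_smul] at this

theorem ord_smul_smul (Φ : SemilinearAut k E) (v : Place k E) (f : E) :
    (Φ • v).ord (Φ • f) = v.ord f :=
  SemilinearAut.ord_smul Φ v f

theorem smul_eq_zero_iff' (Φ : SemilinearAut k E) (f : E) : Φ • f = 0 ↔ f = 0 := by
  constructor
  · intro h
    have := congrArg (fun z => Φ⁻¹ • z) h
    simpa using this
  · rintro rfl
    exact smul_zero Φ

/-- Equality of two classes. -/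
theorem pic0_mk_eq_mk_iff (D₁ D₂ : Divisor.degZero (K := k) (F := E)) :
    Pic0.mk D₁ = Pic0.mk D₂ ↔
      ((D₁ : Divisor k E) - (D₂ : Divisor k E)) ∈ Divisor.principal (K := k) (F := E) := by
  unfold Pic0.mk
  rw [QuotientAddGroup.eq, AddSubgroup.mem_addSubgroupOf]
  have e : ((-D₁ + D₂ : Divisor.degZero (K := k) (F := E)) : Divisor k E) =
      -((D₁ : Divisor k E) - (D₂ : Divisor k E)) := by
    push_cast
    abel
  rw [e, neg_mem_iff]

/-- The base automorphism of a power. -/
theorem baseAut_pow (Φ : SemilinearAut k E) (Q : ℕ)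
    (hΦ : ∀ a : k, SemilinearAut.baseAut Φ a = a ^ Q) (N : ℕ) (a : k) :
    SemilinearAut.baseAut (Φ ^ N) a = a ^ (Q ^ N) := by
  induction N generalizing a with
  | zero => simp
  | succ N ih =>
    rw [pow_succ, SemilinearAut.baseAut_mul, RingAut.mul_apply, hΦ, ih, ← pow_mul, pow_succ,
      mul_comm]

theorem pow_smul_fixed (Φ : SemilinearAut k E) {x : E} (hx : Φ • x = x) (N : ℕ) :
    (Φ ^ N) • x = x := by
  induction N with
  | zero => simp
  | succ N ih => rw [pow_succ, mul_smul, hx, ih]

/-! ### Places fixed by a power of `Φ` -/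

/-- A place fixed by `Θ`, which is not a pole of the `Θ`-fixed function `x`: the value of `x`
is fixed by the base automorphism. -/
theorem value_fixed (H : FFHyp k E) (Θ : SemilinearAut k E) {x : E} (hx : Θ • x = x)
    {v : Place k E} (hv : Θ • v = v) (hreg : 0 ≤ v.ord x) :
    ∃ a : k, SemilinearAut.baseAut Θ a = a ∧ VanAt v (x - algebraMap k E a) := by
  obtain ⟨a, ha⟩ := exists_value v (H.deg_one v) (regAt_of_ord_nonneg hreg)
  refine ⟨a, ?_, ha⟩
  have h1 : Θ • (x - algebraMap k E a) = x - algebraMap k E (SemilinearAut.baseAut Θ a) := by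
    rw [smul_sub, hx, SemilinearAut.smul_algebraMap]
  have h2 : VanAt v (x - algebraMap k E (SemilinearAut.baseAut Θ a)) := by
    rw [vanAt_iff_ord] at ha ⊢
    rcases ha with h0 | hpos
    · left
      rw [← h1, h0, smul_zero]
    · right
      rw [← h1]
      have := ord_smul_smul Θ v (x - algebraMap k E a)
      rw [hv] at this
      rw [this]
      exact hpos
  exact value_unique v h2 ha

/-- The set of places fixed by `Φ ^ N`, `N ≥ 1`, is finite. -/
theorem finite_fixed_places [IsAlgClosed k] (H : FFHyp k E) (Φ : SemilinearAut k E) (Q : ℕ)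
    (hQ : 1 < Q) (hΦ : ∀ a : k, SemilinearAut.baseAut Φ a = a ^ Q) {x : E}
    (hxc : x ∉ Set.range (algebraMap k E)) (hx : Φ • x = x) (N : ℕ) (hN : 1 ≤ N) :
    {v : Place k E | (Φ ^ N) • v = v}.Finite := by
  -- the values
  set R : Set k := {a : k | a ^ (Q ^ N) = a} with hR
  have hRfin : R.Finite := by
    have hQN : 1 < Q ^ N := Nat.one_lt_pow (by omega) hQ
    set p : Polynomial k := Polynomial.X ^ (Q ^ N) - Polynomial.X with hp
    have hp0 : p ≠ 0 := FiniteField.X_pow_card_sub_X_ne_zero k hQN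
    refine (p.roots.toFinset.finite_toSet).subset ?_
    intro a ha
    rw [Finset.mem_coe, Multiset.mem_toFinset, Polynomial.mem_roots hp0, Polynomial.IsRoot.def,
      hp, Polynomial.eval_sub, Polynomial.eval_pow, Polynomial.eval_X, sub_eq_zero]
    exact ha
  have hzfin : ∀ a : k, {v : Place k E | v.ord (x - algebraMap k E a) ≠ 0}.Finite :=
    fun a => finite_ord_ne_zero H.principal _
  have hpfin : {v : Place k E | v.ord x ≠ 0}.Finite := finite_ord_ne_zero H.principal x
  have hUfin : ({v : Place k E | v.ord x ≠ 0} ∪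
      ⋃ a ∈ R, {v : Place k E | v.ord (x - algebraMap k E a) ≠ 0}).Finite :=
    hpfin.union (hRfin.biUnion fun a _ => hzfin a)
  refine hUfin.subset ?_
  intro v hv
  rw [Set.mem_ofPred_eq] at hv
  by_cases hpole : v.ord x < 0
  · left
    rw [Set.mem_ofPred_eq]
    omega
  · right
    obtain ⟨a, ha, hva⟩ := value_fixed H (Φ ^ N) (pow_smul_fixed Φ hx N) hv (not_lt.mp hpole)
    rw [baseAut_pow Φ Q hΦ] at ha
    rw [Set.mem_iUnion₂]
    refine ⟨a, ha, ?_⟩
    rw [Set.mem_ofPred_eq]
    have hne : x - algebraMap k E a ≠ 0 := by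
      intro h0
      apply hxc
      exact ⟨a, (sub_eq_zero.mp h0).symm⟩
    have := hva.ord_pos hne
    omega

/-! ### Effective invariant divisors -/

/-- The coefficients of an effective divisor are bounded by the degree, and so is the size of
the support. -/
theorem eff_bounds (hdeg : ∀ v : Place k E, v.deg = 1) (D : Divisor k E) (hD : ∀ v, 0 ≤ D v) :
    (∀ v, D v ≤ Divisor.degree D) ∧ (D.support.card : ℤ) ≤ Divisor.degree D := by
  have hs : Divisor.degree D = ∑ w ∈ D.support, D w := by
    rw [degree_eq_sum hdeg D]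
    rfl
  rw [hs]
  constructor
  · intro v
    by_cases hv : v ∈ D.support
    · exact Finset.single_le_sum (f := fun w => D w) (fun w _ => hD w) hv
    · rw [Finsupp.notMem_support_iff.mp hv]
      exact Finset.sum_nonneg fun w _ => hD w
  · have h1 : (D.support.card : ℤ) = ∑ _w ∈ D.support, (1 : ℤ) := by
      rw [Finset.sum_const, nsmul_eq_mul, mul_one]
    rw [h1]
    refine Finset.sum_le_sum fun w hw => ?_
    have h2 := hD w
    have h3 := Finsupp.mem_support_iff.mp hw
    omega

/-- A place in the support of an effective `Φ`-invariant divisor of degree `d` is fixed by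
`Φ ^ N` for some `1 ≤ N ≤ d`. -/
theorem fixed_of_mem_support (hdeg : ∀ v : Place k E, v.deg = 1) (Φ : SemilinearAut k E)
    (D : Divisor k E) (hD : ∀ v, 0 ≤ D v) (hinv : ∀ v, D (Φ • v) = D v) (d : ℕ)
    (hd : Divisor.degree D = d) {v : Place k E} (hv : v ∈ D.support) :
    ∃ N : ℕ, 1 ≤ N ∧ N ≤ d ∧ (Φ ^ N) • v = v := by
  have hcard : D.support.card ≤ d := by
    have := (eff_bounds hdeg D hD).2
    rw [hd] at this
    exact_mod_cast this
  have hmem : ∀ i : ℕ, (Φ ^ i) • v ∈ D.support := by
    intro i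
    induction i with
    | zero => simpa using hv
    | succ i ih =>
      rw [pow_succ', mul_smul, Finsupp.mem_support_iff, hinv]
      exact Finsupp.mem_support_iff.mp ih
  let f : Fin (d + 1) → D.support := fun i => ⟨(Φ ^ (i : ℕ)) • v, hmem i⟩
  have hlt : Fintype.card D.support < Fintype.card (Fin (d + 1)) := by
    rw [Fintype.card_coe, Fintype.card_fin]
    omega
  obtain ⟨i, j, hij, hfij⟩ := Fintype.exists_ne_map_eq_of_card_lt f hlt
  have hfij' : (Φ ^ (i : ℕ)) • v = (Φ ^ (j : ℕ)) • v := congrArg Subtype.val hfij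
  have key : ∀ a b : ℕ, a < b → b ≤ d → (Φ ^ a) • v = (Φ ^ b) • v →
      ∃ N : ℕ, 1 ≤ N ∧ N ≤ d ∧ (Φ ^ N) • v = v := by
    intro a b hab hb h
    refine ⟨b - a, by omega, by omega, ?_⟩
    have h1 : Φ ^ b = Φ ^ a * Φ ^ (b - a) := by
      rw [← pow_add]
      congr 1
      omega
    rw [h1, mul_smul] at h
    exact (MulAction.injective (Φ ^ a) h).symm
  have hi := i.2
  have hj := j.2
  rcases Nat.lt_or_gt_of_ne (fun h => hij (Fin.ext h)) with h | h
  · exact key i j h (by omega) hfij'
  · exact key j i h (by omega) hfij'.symm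

/-! ### The main theorem -/

/-- **FROB-FIN.** -/
theorem stmt_FrobFin : Fermat.Agent.S35.H89.Stmt_FrobFin := by
  intro k E _ _ _ _ H g c hg Φ Q hQ hΦ hx
  obtain ⟨x, hxc, hx⟩ := hx
  have hP := H.principal
  -- the poles of `x`
  have hxinv : x⁻¹ ∉ Set.range (algebraMap k E) := by
    rintro ⟨a, ha⟩
    apply hxc
    refine ⟨a⁻¹, ?_⟩
    rw [map_inv₀, ha, inv_inv]
  obtain ⟨v₀, hv₀⟩ := H.exists_zero hxinv
  rw [Place.ord_inv] at hv₀
  set P : Finset (Place k E) := (finite_ord_ne_zero hP x).toFinset.filter (fun v => v.ord x < 0)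
    with hPdef
  have hmemP : ∀ v, v ∈ P ↔ v.ord x < 0 := by
    intro v
    rw [hPdef, Finset.mem_filter, Set.Finite.mem_toFinset, Set.mem_ofPred_eq]
    constructor
    · exact fun h => h.2
    · exact fun h => ⟨by omega, h⟩
  have hPcard : 1 ≤ P.card := Finset.card_pos.mpr ⟨v₀, (hmemP v₀).mpr (by omega)⟩
  have hPinv : ∀ v, Φ • v ∈ P ↔ v ∈ P := by
    intro v
    rw [hmemP, hmemP]
    have := ord_smul_smul Φ v x
    rw [hx] at this
    rw [this]
  -- the divisor `A`
  set A : Divisor k E := (g : ℤ) • ptsDiv P with hA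
  have hAapp : ∀ v, A v = (g : ℤ) * (if v ∈ P then 1 else 0) := by
    intro v
    rw [hA, Finsupp.smul_apply, ptsDiv_apply, smul_eq_mul]
  have hAinv : ∀ v, A (Φ • v) = A v := by
    intro v
    rw [hAapp, hAapp]
    simp only [hPinv]
  have hAnn : ∀ v, 0 ≤ A v := by
    intro v
    rw [hAapp]
    split_ifs <;> simp
  set d : ℕ := g * P.card with hd
  have hAdeg : Divisor.degree A = d := by
    rw [hA, map_zsmul, degree_ptsDiv H.deg_one, hd, smul_eq_mul]
    push_cast
    ring
  have hgd : g ≤ d := by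
    rw [hd]
    exact Nat.le_mul_of_pos_right g hPcard
  -- the finite set of places
  have hfix : ∀ N : ℕ, 1 ≤ N → {v : Place k E | (Φ ^ N) • v = v}.Finite :=
    fun N hN => finite_fixed_places H Φ Q hQ hΦ hxc hx N hN
  have hTfin : (⋃ N ∈ Finset.Icc 1 d, {v : Place k E | (Φ ^ N) • v = v}).Finite :=
    Set.Finite.biUnion (Finset.finite_toSet _) fun N hN =>
      hfix N (Finset.mem_Icc.mp (Finset.mem_coe.mp hN)).1
  set T : Finset (Place k E) := hTfin.toFinset with hT
  -- the finite set of divisors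
  set 𝒟 : Finset (Divisor k E) := T.finsupp (fun _ => Finset.Icc (0 : ℤ) d) with h𝒟
  let cls : Divisor k E → Pic0 k E := fun D' =>
    if h : D' - A ∈ Divisor.degZero (K := k) (F := E) then Pic0.mk ⟨D' - A, h⟩ else 0
  refine ((𝒟.image cls).finite_toSet).subset ?_
  intro y hy
  rw [Set.mem_ofPred_eq] at hy
  obtain ⟨D, rfl⟩ := Pic0.mk_surjective y
  rw [SemilinearAut.pic0_smul_mk, pic0_mk_eq_mk_iff, SemilinearAut.coe_degZeroSMulHom] at hy
  obtain ⟨u, hu0, hu⟩ := hy
  have hDdeg : Divisor.degree (D : Divisor k E) = 0 := Divisor.mem_degZero.mp D.2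
  -- `D (Φ⁻¹ v) = D v + ord_v u`
  have hDu : ∀ v, (D : Divisor k E) (Φ⁻¹ • v) = (D : Divisor k E) v + v.ord u := by
    intro v
    have := hu v
    rw [Finsupp.sub_apply, SemilinearAut.divisor_smul_apply] at this
    omega
  have hAinv' : ∀ v, A (Φ⁻¹ • v) = A v := by
    intro v
    have := hAinv (Φ⁻¹ • v)
    rw [smul_inv_smul] at this
    exact this.symm
  -- the space `L(D + A)`
  set B : Divisor k E := (D : Divisor k E) + A with hB
  have hBdeg : Divisor.degree B = d := by
    rw [hB, map_add, hDdeg, hAdeg, zero_add]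
  have hBapp : ∀ v, B v = (D : Divisor k E) v + A v := by
    intro v
    rw [hB, Finsupp.add_apply]
  haveI hfinB : Module.Finite k (L B) := H.finite B
  have hrk : 1 ≤ Module.finrank k (L B) := by
    have := (hg B).1
    rw [hBdeg] at this
    have h2 : (g : ℤ) ≤ d := by exact_mod_cast hgd
    have h3 : (1 : ℤ) ≤ (Module.finrank k (L B) : ℤ) := by omega
    exact_mod_cast h3
  haveI : Nontrivial (L B) := Module.nontrivial_of_finrank_pos (R := k) (by omega)
  -- the semilinear map
  have hmem : ∀ f : E, f ∈ L B → u * Φ • f ∈ L B := by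
    intro f hf
    rw [mem_L_iff_ord] at hf ⊢
    intro v
    by_cases hf0 : f = 0
    · left
      rw [hf0, smul_zero, mul_zero]
    · right
      have hΦf0 : Φ • f ≠ 0 := fun h => hf0 ((smul_eq_zero_iff' Φ f).mp h)
      rw [v.ord_mul hu0 hΦf0, ord_smul_eq]
      have h1 := (hf (Φ⁻¹ • v)).resolve_left hf0
      rw [hBapp, hDu, hAinv'] at h1
      rw [hBapp]
      omega
  let Ψ : L B →+ L B :=
    { toFun := fun f => ⟨u * Φ • (f : E), hmem f f.2⟩
      map_zero' := by
        apply Subtype.ext
        simp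
      map_add' := fun f₁ f₂ => by
        apply Subtype.ext
        simp only [Submodule.coe_add, smul_add, mul_add] }
  have hΨapp : ∀ f : L B, ((Ψ f : L B) : E) = u * Φ • (f : E) := fun _ => rfl
  set σ : k →+* k := (SemilinearAut.baseAut Φ : k ≃+* k).toRingHom with hσ
  have hσapp : ∀ a, σ a = a ^ Q := fun a => hΦ a
  have hΨsl : ∀ (a : k) (f : L B), Ψ (a • f) = σ a • Ψ f := by
    intro a f
    apply Subtype.ext
    rw [hΨapp, Submodule.coe_smul, Submodule.coe_smul, hΨapp, Algebra.smul_def, Algebra.smul_def,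
      smul_mul', SemilinearAut.smul_algebraMap]
    show u * (algebraMap k E (SemilinearAut.baseAut Φ a) * Φ • (f : E)) =
      algebraMap k E (SemilinearAut.baseAut Φ a) * (u * Φ • (f : E))
    ring
  have hΨinj : Function.Injective Ψ := by
    intro f₁ f₂ h
    have h1 := congrArg Subtype.val h
    rw [hΨapp, hΨapp] at h1
    have h2 := mul_left_cancel₀ hu0 h1
    apply Subtype.ext
    exact MulAction.injective Φ h2
  obtain ⟨f, hf0, hfix'⟩ := exists_fixed_of_semilinear σ Q hQ hσapp Ψ hΨsl hΨinj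
  have hfE0 : (f : E) ≠ 0 := fun h => hf0 (Subtype.ext h)
  have hfE : u * Φ • (f : E) = (f : E) := by
    have := congrArg Subtype.val hfix'
    rwa [hΨapp] at this
  -- the invariant effective divisor
  set E' : Divisor k E := B + dv hP (f : E) with hE'
  have hE'app : ∀ v, E' v = (D : Divisor k E) v + A v + v.ord (f : E) := by
    intro v
    rw [hE', Finsupp.add_apply, hBapp, dv_apply]
  have hE'nn : ∀ v, 0 ≤ E' v := by
    intro v
    have := ord_ge_of_mem_L f.2 hfE0 v
    rw [hBapp] at this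
    rw [hE'app]
    omega
  have hE'inv' : ∀ v, E' (Φ⁻¹ • v) = E' v := by
    intro v
    rw [hE'app, hE'app, hDu, hAinv']
    have h1 : v.ord (f : E) = v.ord u + (Φ⁻¹ • v).ord (f : E) := by
      conv_lhs => rw [← hfE]
      rw [v.ord_mul hu0 (fun h => hfE0 ((smul_eq_zero_iff' Φ _).mp h)), ord_smul_eq]
    omega
  have hE'inv : ∀ v, E' (Φ • v) = E' v := by
    intro v
    have := hE'inv' (Φ • v)
    rw [inv_smul_smul] at this
    exact this.symm
  have hE'deg : Divisor.degree E' = d := by
    rw [hE', map_add, hBdeg, degree_dv, add_zero]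
  -- `E' ∈ 𝒟`
  have hE'mem : E' ∈ 𝒟 := by
    rw [h𝒟, Finset.mem_finsupp_iff]
    constructor
    · intro v hv
      obtain ⟨N, hN1, hNd, hNv⟩ := fixed_of_mem_support H.deg_one Φ E' hE'nn hE'inv d hE'deg hv
      rw [hT, Set.Finite.mem_toFinset, Set.mem_iUnion₂]
      exact ⟨N, Finset.mem_Icc.mpr ⟨hN1, hNd⟩, hNv⟩
    · intro v _
      rw [Finset.mem_Icc]
      refine ⟨hE'nn v, ?_⟩
      have := (eff_bounds H.deg_one E' hE'nn).1 v
      rwa [hE'deg] at this
  -- the class
  rw [Finset.mem_coe, Finset.mem_image]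
  refine ⟨E', hE'mem, ?_⟩
  have hdz : E' - A ∈ Divisor.degZero (K := k) (F := E) := by
    rw [Divisor.mem_degZero, map_sub, hE'deg, hAdeg, sub_self]
  show (if h : E' - A ∈ Divisor.degZero (K := k) (F := E) then Pic0.mk ⟨E' - A, h⟩ else 0) =
    Pic0.mk D
  rw [dif_pos hdz, pic0_mk_eq_mk_iff]
  have e : (E' - A) - (D : Divisor k E) = dv hP (f : E) := by
    ext v
    rw [Finsupp.sub_apply, Finsupp.sub_apply, hE'app, dv_apply]
    ring
  show (E' - A) - (D : Divisor k E) ∈ Divisor.principal (K := k) (F := E)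
  rw [e]
  exact dv_mem_principal hP hfE0

/-- The exponent form. -/
theorem stmt_FrobFinExp : Fermat.Agent.S35.H89.Stmt_FrobFinExp :=
  Fermat.Agent.S35.H89.frobFinExp_of stmt_FrobFin

end Fermat.Agent.L.H28
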