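/-
Cluster L (level lowering), helper37: MAZUR'S PRINCIPLE, abstract linear algebra.

`k` a field, `J` a `k`-vector space (think `J0(N)[p] ⊗ k`) with commuting operators `t ℓ` (Hecke) and an
operator `φ` (a Frobenius at `q`, or an inertia element at `p`), `V ⊆ J` a 2-dimensional `φ`-stable
subspace of `θ`-eigenvectors (the image of the residual representation).

* `le_fin_of_nonEisenstein` : if `V` lies in the inertia invariants `JI` and the "component map"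
  `comp : JI → Φ` has Eisenstein target (`tΦ ℓ = eis ℓ`) and kernel inside the finite part `Jfin`, and `θ`
  is not Eisenstein, then `V ≤ Jfin`.
* `mazur_principle` : if `V ≤ Jfin`, `r : Jfin → B` (reduction to the abelian part `B = J0(N/r)[p]²`) is
  Hecke-equivariant on eigenvectors with kernel in the toric part `T`, `φ` acts on `T` by the scalar `c`
  and `det (φ | V) = d` with `c² ≠ d`, then `θ` occurs in `B`.
  (`r = q`: `c = ±q`, `d = q`, so `c² ≠ d` iff `q ≢ 1 mod p`.  `r = p`: `φ ∈ I_p` with `χ(φ) ≠ 1`,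
  `c = d = χ(φ)`.)
-/
import Mathlib.LinearAlgebra.Determinant
import Mathlib.LinearAlgebra.FiniteDimensional.Lemmas
import Mathlib.LinearAlgebra.Dimension.Finrank

set_option autoImplicit false

namespace Fermat.Agent.L.H37

variable {k : Type*} [Field k] {J : Type*} [AddCommGroup J] [Module k J]
  {B : Type*} [AddCommGroup B] [Module k B] {Φ : Type*} [AddCommGroup Φ] [Module k Φ]
  {ι : Type*}

/-- Non-Eisenstein eigenvectors in the inertia invariants lie in the finite part. -/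
theorem le_fin_of_nonEisenstein (t : ι → J →ₗ[k] J) (θ eis : ι → k)
    (V JI Jfin : Submodule k J) (hVI : V ≤ JI)
    (hVθ : ∀ x ∈ V, ∀ ℓ, t ℓ x = θ ℓ • x)
    (comp : JI →ₗ[k] Φ) (hcomp : ∀ x : JI, comp x = 0 → (x : J) ∈ Jfin)
    (tΦ : ι → Φ →ₗ[k] Φ) (hΦ : ∀ ℓ y, tΦ ℓ y = eis ℓ • y)
    (hequiv : ∀ (x : JI) (ℓ : ι) (a : k), t ℓ (x : J) = a • (x : J) → tΦ ℓ (comp x) = a • comp x)
    (hne : ∃ ℓ, θ ℓ ≠ eis ℓ) : V ≤ Jfin := by
  intro x hx
  obtain ⟨ℓ, hℓ⟩ := hne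
  have h1 := hequiv ⟨x, hVI hx⟩ ℓ (θ ℓ) (hVθ x hx ℓ)
  rw [hΦ] at h1
  have h2 : (θ ℓ - eis ℓ) • comp ⟨x, hVI hx⟩ = 0 := by
    rw [sub_smul, h1, sub_self]
  have h3 : comp ⟨x, hVI hx⟩ = 0 := by
    rcases smul_eq_zero.1 h2 with h | h
    · exact absurd (sub_eq_zero.1 h) hℓ
    · exact h
  exact hcomp ⟨x, hVI hx⟩ h3

/-- **Mazur's principle** (abstract form). -/
theorem mazur_principle (t : ι → J →ₗ[k] J) (θ : ι → k)
    (V Jfin T : Submodule k J) (hV2 : Module.finrank k V = 2)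
    (hVθ : ∀ x ∈ V, ∀ ℓ, t ℓ x = θ ℓ • x) (hVfin : V ≤ Jfin)
    (r : Jfin →ₗ[k] B) (hker : ∀ x : Jfin, r x = 0 → (x : J) ∈ T)
    (tB : ι → B →ₗ[k] B)
    (hr : ∀ (x : Jfin) (ℓ : ι) (a : k), t ℓ (x : J) = a • (x : J) → tB ℓ (r x) = a • r x)
    (φ : J →ₗ[k] J) (hφV : ∀ x ∈ V, φ x ∈ V) (c d : k) (hφT : ∀ x ∈ T, φ x = c • x)
    (hdet : LinearMap.det (φ.restrict hφV) = d) (hcd : c * c ≠ d) :
    ∃ b : B, b ≠ 0 ∧ ∀ ℓ, tB ℓ b = θ ℓ • b := by
  by_cases h : ∃ x : V, r ⟨x, hVfin x.2⟩ ≠ 0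
  · obtain ⟨x, hx⟩ := h
    exact ⟨r ⟨x, hVfin x.2⟩, hx, fun ℓ => hr ⟨x, hVfin x.2⟩ ℓ (θ ℓ) (hVθ x x.2 ℓ)⟩
  · exfalso
    push Not at h
    have hVT : ∀ x : V, (x : J) ∈ T := fun x => hker ⟨x, hVfin x.2⟩ (h x)
    have hφ : φ.restrict hφV = c • (LinearMap.id : V →ₗ[k] V) := by
      ext x
      simp only [LinearMap.coe_restrict_apply, LinearMap.smul_apply, LinearMap.id_coe, id_eq,
        Submodule.coe_smul]
      exact hφT x (hVT x)
    rw [hφ, LinearMap.det_smul, hV2, LinearMap.det_id, mul_one, pow_two] at hdet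
    exact hcd hdet

/-- Mazur's principle at `q ≠ p`: Frobenius acts on the toric part by `ε·q`, `ε² = 1`, and has
determinant `q` on `V`; if `q ≠ 0, 1` in `k` then `θ` occurs in `B`. -/
theorem mazur_principle_frobenius (t : ι → J →ₗ[k] J) (θ : ι → k)
    (V Jfin T : Submodule k J) (hV2 : Module.finrank k V = 2)
    (hVθ : ∀ x ∈ V, ∀ ℓ, t ℓ x = θ ℓ • x) (hVfin : V ≤ Jfin)
    (r : Jfin →ₗ[k] B) (hker : ∀ x : Jfin, r x = 0 → (x : J) ∈ T)
    (tB : ι → B →ₗ[k] B)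
    (hr : ∀ (x : Jfin) (ℓ : ι) (a : k), t ℓ (x : J) = a • (x : J) → tB ℓ (r x) = a • r x)
    (φ : J →ₗ[k] J) (hφV : ∀ x ∈ V, φ x ∈ V) (q ε : k) (hε : ε * ε = 1)
    (hφT : ∀ x ∈ T, φ x = (ε * q) • x)
    (hdet : LinearMap.det (φ.restrict hφV) = q) (hq0 : q ≠ 0) (hq1 : q ≠ 1) :
    ∃ b : B, b ≠ 0 ∧ ∀ ℓ, tB ℓ b = θ ℓ • b := by
  refine mazur_principle t θ V Jfin T hV2 hVθ hVfin r hker tB hr φ hφV (ε * q) q hφT hdet ?_
  intro h
  have h1 : ε * q * (ε * q) = (ε * ε) * (q * q) := by ring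
  rw [h1, hε, one_mul] at h
  have h2 : q * (q - 1) = 0 := by
    rw [mul_sub, mul_one, h, sub_self]
  rcases mul_eq_zero.1 h2 with h3 | h3
  · exact hq0 h3
  · exact hq1 (sub_eq_zero.1 h3)

/-- Mazur's principle at `p`: an inertia element `σ` acts on the multiplicative part `T` through the
cyclotomic character, `χ σ = c`, and `det (σ | V) = c`; if `c ≠ 1` then `θ` occurs in `B`. -/
theorem mazur_principle_inertia (t : ι → J →ₗ[k] J) (θ : ι → k)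
    (V Jfin T : Submodule k J) (hV2 : Module.finrank k V = 2)
    (hVθ : ∀ x ∈ V, ∀ ℓ, t ℓ x = θ ℓ • x) (hVfin : V ≤ Jfin)
    (r : Jfin →ₗ[k] B) (hker : ∀ x : Jfin, r x = 0 → (x : J) ∈ T)
    (tB : ι → B →ₗ[k] B)
    (hr : ∀ (x : Jfin) (ℓ : ι) (a : k), t ℓ (x : J) = a • (x : J) → tB ℓ (r x) = a • r x)
    (σ : J →ₗ[k] J) (hσV : ∀ x ∈ V, σ x ∈ V) (c : k)
    (hσT : ∀ x ∈ T, σ x = c • x)
    (hdet : LinearMap.det (σ.restrict hσV) = c) (hc0 : c ≠ 0) (hc1 : c ≠ 1) :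
    ∃ b : B, b ≠ 0 ∧ ∀ ℓ, tB ℓ b = θ ℓ • b := by
  refine mazur_principle t θ V Jfin T hV2 hVθ hVfin r hker tB hr σ hσV c c hσT hdet ?_
  intro h
  have h2 : c * (c - 1) = 0 := by
    rw [mul_sub, mul_one, h, sub_self]
  rcases mul_eq_zero.1 h2 with h3 | h3
  · exact hc0 h3
  · exact hc1 (sub_eq_zero.1 h3)

end Fermat.Agent.L.H37
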