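/-
Cluster L (helper52): the determinant of the mod `p` representation of an elliptic curve over `ℚ`
is the mod `p` cyclotomic character.  Proof by Frobenius density (item 61) and `det Frob_ℓ = ℓ`
(item 62); no Weil pairing.

* `det_rhoW_eq_natCast` : if `σ ζ = ζ ^ n` for all `p`-th roots of unity then `det ρ(σ) = n`.
* `det_eq_natCast` : the same for a curve `E` over `ℚ` with an integral model.
* `galoisRepDetEqCyclotomic` : the prelude's `GaloisRepDetEqCyclotomic`.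
-/
import Fermat.Agent.L.H52_RecUncond
import Fermat.Prelude.Def_FreyPackage_DetCyclotomic

set_option autoImplicit false

open WeierstrassCurve WeierstrassCurve.Affine WeierstrassCurve.Affine.Point
open scoped WeierstrassCurve.Affine

namespace Fermat.Agent.L.H52

section Det

variable {W : WeierstrassCurve ℤ} {p : ℕ} [Fact p.Prime]

/-- **`det ρ = χ_p`**, elementary form, for an integral model. -/
theorem det_rhoW_eq_natCast (hΔ : W.Δ ≠ 0) (σ : GQ) (n : ℕ)
    (hn : ∀ ζ : Qb, ζ ^ p = 1 → σ ζ = ζ ^ n) :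
    LinearMap.det (rhoW W p σ) = (n : ZMod p) := by
  have hFD := Fermat.Agent.Lib.FrobDensity.stmt_FD
  have hmain := Fermat.Agent.Lib.EllFinite.stmt_main
  have hpp : p.Prime := Fact.out
  haveI := finite_tors (p := p) hFD hmain hΔ
  obtain ⟨L₀, hL₀, hfix⟩ := exists_level (WQ W) p
  haveI : NeZero p := ⟨hpp.ne_zero⟩
  obtain ⟨ζ, hζ⟩ := HasEnoughRootsOfUnity.exists_primitiveRoot Qb p
  let L₁ : IntermediateField ℚ Qb := IntermediateField.adjoin ℚ {ζ}
  have hL₁ : FiniteDimensional ℚ L₁ :=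
    IntermediateField.adjoin.finiteDimensional (hζ.isIntegral hpp.pos).tower_top
  haveI := hL₀
  haveI := hL₁
  obtain ⟨ℓ, A, τ, j, hℓ, -, hℓp, hgood, hA, hτ, hj⟩ :=
    exists_frob (p := p) hFD hΔ ∅ (L₀ ⊔ L₁) inferInstance σ
  have hρ1 : ∀ g : GQ, (∀ x ∈ L₀, g x = x) → rhoW W p g = 1 := by
    intro g hg
    refine LinearMap.ext fun v => ?_
    rw [galoisRepModuleEnd_apply, Module.End.one_apply]
    exact hfix g hg v
  have hρ : rhoW W p σ = rhoW W p τ ^ j := by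
    rw [← map_pow]
    exact (map_eq_of_agree (rhoW W p) L₀ hρ1
      (fun x hx => hj x ((le_sup_left : L₀ ≤ L₀ ⊔ L₁) hx))).symm
  have hdet := (hmain W p ℓ hℓ (Ne.symm hℓp) hgood A hA τ hτ).2.2
  have hζ1 : ζ ^ p = 1 := hζ.pow_eq_one
  have hζL : ζ ∈ L₀ ⊔ L₁ :=
    (le_sup_right : L₁ ≤ L₀ ⊔ L₁) (IntermediateField.mem_adjoin_simple_self ℚ ζ)
  have h1 : ζ ^ (ℓ ^ j) = ζ ^ n := by
    rw [← frob_pow_root A hℓ hpp hℓp hA hτ j hζ1, hj ζ hζL, hn ζ hζ1]
  have hfo : IsOfFinOrder ζ := isOfFinOrder_iff_pow_eq_one.2 ⟨p, hpp.pos, hζ1⟩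
  have h2 : ℓ ^ j ≡ n [MOD p] := by
    have := hfo.pow_eq_pow_iff_modEq.1 h1
    rwa [← hζ.eq_orderOf] at this
  have h3 : ((ℓ ^ j : ℕ) : ZMod p) = (n : ZMod p) := (ZMod.natCast_eq_natCast_iff _ _ _).2 h2
  rw [hρ, map_pow, hdet]
  exact_mod_cast h3

/-- **`det ρ = χ_p`**, elementary form, for a curve over `ℚ` with an integral model. -/
theorem det_eq_natCast {E : WeierstrassCurve ℚ} (hW : W.IsIntegralModelOf E) (hΔ : W.Δ ≠ 0)
    (σ : GQ) (n : ℕ) (hn : ∀ ζ : Qb, ζ ^ p = 1 → σ ζ = ζ ^ n) :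
    LinearMap.det (galoisRepModuleEnd (S := ℚ) (K := AlgebraicClosure ℚ) E.toAffine p σ)
      = (n : ZMod p) := by
  obtain ⟨C, hC⟩ := hW
  rw [Fermat.Agent.L.H19.det_galois_eq (K := AlgebraicClosure ℚ) hC p σ]
  exact det_rhoW_eq_natCast hΔ σ n hn

/-- The action of `σ` on `p`-th roots of unity is through the mod `p` cyclotomic character. -/
theorem root_action [NeZero p] (hn : Nat.card (rootsOfUnity p Qb) = p) (σ : GQ) (ζ : Qb)
    (hζ : ζ ^ p = 1) :
    σ ζ = ζ ^ ((modularCyclotomicCharacter Qb hn (σ : Qb ≃+* Qb) : (ZMod p)ˣ) : ZMod p).val := by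
  have hpp : p.Prime := Fact.out
  have hζ0 : ζ ≠ 0 := by
    rintro rfl
    rw [zero_pow hpp.ne_zero] at hζ
    exact zero_ne_one hζ
  have hmem : Units.mk0 ζ hζ0 ∈ rootsOfUnity p Qb := by
    rw [mem_rootsOfUnity]
    exact Units.ext (by simpa using hζ)
  have h := modularCyclotomicCharacter.spec Qb hn (σ : Qb ≃+* Qb) hmem
  simpa using h

/-- **`det ρ = χ_p`** in the prelude's form, for an integral model. -/
theorem galoisRepDetEqCyclotomic_rhoW [NeZero p] (hΔ : W.Δ ≠ 0)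
    (hn : Nat.card (rootsOfUnity p Qb) = p) :
    GaloisRepDetEqCyclotomic (K := AlgebraicClosure ℚ) ℚ (WQ W).toAffine p hn := by
  intro σ
  apply Units.ext
  rw [galoisRepDet_apply]
  have h1 : ((LinearEquiv.det (galoisRep (S := ℚ) (K := AlgebraicClosure ℚ)
      (WQ W).toAffine p σ) : (ZMod p)ˣ) : ZMod p) = LinearMap.det (rhoW W p σ) :=
    LinearEquiv.coe_det _
  rw [h1, det_rhoW_eq_natCast hΔ σ _ (root_action hn σ), ZMod.natCast_zmod_val]

/-- **`det ρ = χ_p`** in the prelude's form, for a curve over `ℚ` with an integral model. -/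
theorem galoisRepDetEqCyclotomic [NeZero p] {E : WeierstrassCurve ℚ}
    (hW : W.IsIntegralModelOf E) (hΔ : W.Δ ≠ 0) (hn : Nat.card (rootsOfUnity p Qb) = p) :
    GaloisRepDetEqCyclotomic (K := AlgebraicClosure ℚ) ℚ E.toAffine p hn := by
  intro σ
  apply Units.ext
  rw [galoisRepDet_apply]
  have h1 : ((LinearEquiv.det (galoisRep (S := ℚ) (K := AlgebraicClosure ℚ)
      E.toAffine p σ) : (ZMod p)ˣ) : ZMod p)
      = LinearMap.det (galoisRepModuleEnd (S := ℚ) (K := AlgebraicClosure ℚ) E.toAffine p σ) :=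
    LinearEquiv.coe_det _
  rw [h1, det_eq_natCast hW hΔ σ _ (root_action hn σ), ZMod.natCast_zmod_val]

end Det

end Fermat.Agent.L.H52
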