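/-
Cluster L (helper52): `det ρ = χ_p` for the Frey curve (prelude form and elementary form), and
Burnside + dimension for the Frey curve.  Inputs: items 61, 62 (via `H52_DetCyc.lean`).
-/
import Fermat.Agent.L.H52_DetCyc
import Fermat.Agent.S04.H59_FreySemistable

set_option autoImplicit false

open WeierstrassCurve WeierstrassCurve.Affine WeierstrassCurve.Affine.Point
open scoped WeierstrassCurve.Affine

namespace Fermat.Agent.L.H52

variable (P : FreyPackage)

/-- The integral Frey model is an integral model of the Frey curve. -/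
theorem freyCurveInt_isIntegralModelOf : P.freyCurveInt.IsIntegralModelOf P.freyCurve :=
  ⟨1, by rw [one_smul, Fermat.Agent.S04.H59.freyCurveInt_map P]⟩

/-- **`det ρ = χ_p` for the Frey curve**, elementary form. -/
theorem frey_det_eq_natCast (σ : GQ) (n : ℕ)
    (hn : ∀ ζ : Qb, ζ ^ P.p = 1 → σ ζ = ζ ^ n) :
    LinearMap.det (galoisRepModuleEnd (S := ℚ) (K := AlgebraicClosure ℚ) P.freyCurve.toAffine
      P.p σ) = (n : ZMod P.p) :=
  haveI : Fact P.p.Prime := ⟨P.pp⟩
  det_eq_natCast (freyCurveInt_isIntegralModelOf P)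
    (Fermat.Agent.S04.H59.freyCurveInt_Δ_ne_zero P) σ n hn

/-- **`det ρ = χ_p` for the Frey curve**, prelude form. -/
theorem frey_galoisRepDetEqCyclotomic :
    haveI : NeZero P.p := ⟨P.pp.ne_zero⟩
    GaloisRepDetEqCyclotomic (K := AlgebraicClosure ℚ) ℚ P.freyCurve.toAffine P.p
      P.card_rootsOfUnity_algebraicClosure :=
  haveI : Fact P.p.Prime := ⟨P.pp⟩
  haveI : NeZero P.p := ⟨P.pp.ne_zero⟩
  galoisRepDetEqCyclotomic (freyCurveInt_isIntegralModelOf P)
    (Fermat.Agent.S04.H59.freyCurveInt_Δ_ne_zero P) P.card_rootsOfUnity_algebraicClosure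

end Fermat.Agent.L.H52
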